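import Fermat.Agent.WeilPairing.Nondegenerate

/-!
# The Weil pairing on `E[n]` and the determinant of a semilinear automorphism

`F` is algebraically closed, `n` is invertible in `F`.  `pairVal n P T` is the ratio of `pairG n P`
at the translate by `T` of the generic point and at the generic point.
-/

namespace Fermat.Agent.WeilPairing

open WeierstrassCurve WeierstrassCurve.Affine

set_option linter.unusedSectionVars false

variable {F : Type*} [Field F] [DecidableEq F] [IsAlgClosed F] {W : WeierstrassCurve.Affine F}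

/-- A point of the big curve with no nonzero constant multiple. -/
def IsMoving (R : (bigCurve W).Point) : Prop :=
  ∀ z : ℤ, z • R ∈ Set.range (bigIncl W) → z = 0

lemma isMoving_bigPoint (hΔ : W.Δ ≠ 0) : IsMoving (bigPoint W hΔ) :=
  fun _ => bigPoint_zsmul_mem_range hΔ

lemma IsMoving.add_bigIncl {R : (bigCurve W).Point} (hR : IsMoving R) (T : W.Point) :
    IsMoving (R + bigIncl W T) := fun z ⟨c, hc⟩ =>
  hR z ⟨c - z • T, by rw [map_sub, map_zsmul, hc, zsmul_add, add_sub_cancel_right]⟩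

lemma IsMoving.ne_zero {R : (bigCurve W).Point} (hR : IsMoving R) : R ≠ 0 := fun h =>
  one_ne_zero (hR 1 ⟨0, by rw [h, map_zero, zsmul_zero]⟩)

lemma IsMoving.addOrderOf_eq {R : (bigCurve W).Point} (hR : IsMoving R) : addOrderOf R = 0 := by
  by_contra h
  refine h (Int.ofNat_eq_zero.mp (hR (addOrderOf R : ℤ) ⟨0, ?_⟩))
  rw [map_zero, natCast_zsmul, addOrderOf_nsmul_eq_zero]

lemma IsMoving.disjoint {R : (bigCurve W).Point} (hR : IsMoving R) :
    Disjoint (bigIncl W).range (AddSubgroup.zmultiples R) := by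
  rw [AddSubgroup.disjoint_def]
  rintro x ⟨c, rfl⟩ hx
  obtain ⟨z, hz⟩ := AddSubgroup.mem_zmultiples_iff.mp hx
  rw [← hz, hR z ⟨c, hz.symm⟩, zero_zsmul]

/-- The ratio defining the Weil pairing. -/
noncomputable def pairVal (hΔ : W.Δ ≠ 0) (n : ℕ) (P T : W.Point) : BigField W :=
  pairG n (bigIncl W P) (bigPoint W hΔ + bigIncl W T) / pairG n (bigIncl W P) (bigPoint W hΔ)

/-- `P` pairs with `T` independently of the moving point. -/
def HasTransl (n : ℕ) (P T : W.Point) : Prop :=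
  ∃ e : BigField W, ∀ R : (bigCurve W).Point, IsMoving R →
    pairG n (bigIncl W P) (R + bigIncl W T) = e * pairG n (bigIncl W P) R

lemma pairG_bigIncl_ne_zero {n : ℕ} {R : (bigCurve W).Point} (hR : IsMoving R) (P : W.Point) :
    pairG n (bigIncl W P) R ≠ 0 :=
  pairG_ne_zero hR.disjoint ⟨P, rfl⟩ (AddSubgroup.mem_zmultiples R)

variable {n : ℕ} {hΔ : W.Δ ≠ 0}

lemma HasTransl.eq {P T : W.Point} (h : HasTransl n P T) {R : (bigCurve W).Point}
    (hR : IsMoving R) : pairG n (bigIncl W P) (R + bigIncl W T) =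
      pairVal hΔ n P T * pairG n (bigIncl W P) R := by
  obtain ⟨e, he⟩ := h
  rw [pairVal, he _ (isMoving_bigPoint hΔ),
    mul_div_cancel_right₀ _ (pairG_bigIncl_ne_zero (isMoving_bigPoint hΔ) P), he _ hR]

lemma HasTransl.add_right {P T T' : W.Point} (h : HasTransl n P T) (h' : HasTransl n P T') :
    HasTransl n P (T + T') := by
  obtain ⟨e, he⟩ := h
  obtain ⟨e', he'⟩ := h'
  refine ⟨e' * e, fun R hR => ?_⟩
  rw [map_add, ← add_assoc, he' _ (hR.add_bigIncl T), he R hR, mul_assoc]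

lemma pairVal_add_right {P T T' : W.Point} (h : HasTransl n P T) (h' : HasTransl n P T') :
    pairVal hΔ n P (T + T') = pairVal hΔ n P T * pairVal hΔ n P T' := by
  have hG := isMoving_bigPoint hΔ
  rw [pairVal, map_add, ← add_assoc, h'.eq (hΔ := hΔ) (hG.add_bigIncl T), h.eq (hΔ := hΔ) hG,
    ← mul_assoc, mul_div_cancel_right₀ _ (pairG_bigIncl_ne_zero hG P), mul_comm]

lemma pairG_zero_left {R : (bigCurve W).Point} (hR : IsMoving R) :
    pairG n (0 : (bigCurve W).Point) R = 1 := by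
  rw [pairG, millerPhi_of_ne hR.ne_zero, millerVal_zero_left, millerVal_zero, mul_one, div_one,
    kappa]
  exact Finset.prod_eq_one fun j _ => if_neg fun h => h.2.1 rfl

lemma hasTransl_zero_left (T : W.Point) : HasTransl n 0 T :=
  ⟨1, fun R hR => by rw [map_zero, one_mul, pairG_zero_left (hR.add_bigIncl T),
    pairG_zero_left hR]⟩

open scoped Classical in
/-- The factor relating `pairG` at `P₁`, `P₂` and `P₁ + P₂`; it does not depend on the point. -/
lemma exists_pairG_mul {P₁ P₂ : W.Point} (h₁ : n • P₁ = 0) (h₂ : n • P₂ = 0) (hΔ : W.Δ ≠ 0) :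
    ∃ c : BigField W, c ≠ 0 ∧ ∀ R : (bigCurve W).Point, IsMoving R →
      pairG n (bigIncl W P₁) R * pairG n (bigIncl W P₂) R =
        pairG n (bigIncl W (P₁ + P₂)) R *
          lineVal (bigIncl W P₁) (bigIncl W P₂) (n • R) * c := by
  refine ⟨kappa n (bigIncl W P₁) * kappa n (bigIncl W P₂) * kappa n (bigIncl W (P₁ + P₂)) *
      if IsLinePair (bigIncl W P₁) (bigIncl W P₂) then kappa n (bigPoint W hΔ) else 1, ?_,
    fun R hR => ?_⟩
  · refine mul_ne_zero (mul_ne_zero (mul_ne_zero ?_ ?_) ?_) ?_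
    any_goals exact kappa_ne_zero _ _
    split_ifs
    · exact kappa_ne_zero _ _
    · exact one_ne_zero
  rw [pairG_mul_pairG hR.disjoint (by rw [← map_nsmul, h₁, map_zero])
    (by rw [← map_nsmul, h₂, map_zero]) ⟨P₁, rfl⟩ ⟨P₂, rfl⟩ (AddSubgroup.mem_zmultiples R)
    hR.ne_zero, ← map_add, kappa_eq_of_addOrderOf_eq n (P := R) (Q := bigPoint W hΔ)
      (by rw [hR.addOrderOf_eq, (isMoving_bigPoint hΔ).addOrderOf_eq])]

lemma HasTransl.add_left (hΔ : W.Δ ≠ 0) {P₁ P₂ T : W.Point} (h₁ : n • P₁ = 0) (h₂ : n • P₂ = 0)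
    (hT : n • T = 0) (t₁ : HasTransl n P₁ T) (t₂ : HasTransl n P₂ T) :
    HasTransl n (P₁ + P₂) T := by
  obtain ⟨e₁, he₁⟩ := t₁
  obtain ⟨e₂, he₂⟩ := t₂
  obtain ⟨c, hc, hmul⟩ := exists_pairG_mul h₁ h₂ hΔ
  refine ⟨e₁ * e₂, fun R hR => ?_⟩
  have hnR : n • (R + bigIncl W T) = n • R := by
    rw [nsmul_add, ← map_nsmul, hT, map_zero, add_zero]
  have a := hmul R hR
  have b := hmul _ (hR.add_bigIncl T)
  rw [hnR, he₁ R hR, he₂ R hR] at b
  have hl : lineVal (bigIncl W P₁) (bigIncl W P₂) (n • R) ≠ 0 :=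
    lineVal_ne_zero_of_disjoint hR.disjoint ⟨P₁, rfl⟩ ⟨P₂, rfl⟩
      (nsmul_mem (AddSubgroup.mem_zmultiples R) n)
  refine mul_right_cancel₀ (mul_ne_zero hl hc) ?_
  linear_combination (norm := ring1) e₁ * e₂ * a - b

lemma pairVal_add_left {P₁ P₂ T : W.Point} (h₁ : n • P₁ = 0) (h₂ : n • P₂ = 0) (hT : n • T = 0)
    (t₁ : HasTransl n P₁ T) (t₂ : HasTransl n P₂ T) :
    pairVal hΔ n (P₁ + P₂) T = pairVal hΔ n P₁ T * pairVal hΔ n P₂ T := by
  have hG := isMoving_bigPoint hΔ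
  obtain ⟨c, hc, hmul⟩ := exists_pairG_mul h₁ h₂ hΔ
  have a := hmul _ hG
  have b := hmul _ (hG.add_bigIncl T)
  have hnR : n • (bigPoint W hΔ + bigIncl W T) = n • bigPoint W hΔ := by
    rw [nsmul_add, ← map_nsmul, hT, map_zero, add_zero]
  rw [hnR, t₁.eq (hΔ := hΔ) hG, t₂.eq (hΔ := hΔ) hG,
    (HasTransl.add_left hΔ h₁ h₂ hT t₁ t₂).eq (hΔ := hΔ) hG] at b
  have hl : lineVal (bigIncl W P₁) (bigIncl W P₂) (n • bigPoint W hΔ) ≠ 0 :=
    lineVal_ne_zero_of_disjoint hG.disjoint ⟨P₁, rfl⟩ ⟨P₂, rfl⟩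
      (nsmul_mem (AddSubgroup.mem_zmultiples _) n)
  refine mul_right_cancel₀
    (mul_ne_zero (mul_ne_zero (pairG_bigIncl_ne_zero (n := n) hG (P₁ + P₂)) hl) hc) ?_
  linear_combination (norm := ring1)
    pairVal hΔ n P₁ T * pairVal hΔ n P₂ T * a - b

/-- Two `n`-torsion points freely generating. -/
structure IsTorsionBasis (n : ℕ) (P Q : W.Point) : Prop where
  left : n • P = 0
  right : n • Q = 0
  indep : ∀ a b : ℤ, a • P + b • Q = 0 → (n : ℤ) ∣ a ∧ (n : ℤ) ∣ b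

namespace IsTorsionBasis

variable {P Q : W.Point} (hPQ : IsTorsionBasis n P Q)

include hPQ

lemma swap : IsTorsionBasis n Q P :=
  ⟨hPQ.right, hPQ.left, fun a b h => (hPQ.indep b a (by rw [add_comm]; exact h)).symm⟩

lemma shear : IsTorsionBasis n P (P + Q) := by
  refine ⟨hPQ.left, by rw [nsmul_add, hPQ.left, hPQ.right, add_zero], fun a b h => ?_⟩
  obtain ⟨h1, h2⟩ := hPQ.indep (a + b) b (by
    rw [add_zsmul]; rw [zsmul_add] at h; rw [← h]; abel)
  exact ⟨by simpa using dvd_sub h1 h2, h2⟩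

lemma disjoint : Disjoint (AddSubgroup.zmultiples P) (AddSubgroup.zmultiples Q) := by
  rw [AddSubgroup.disjoint_def]
  intro x hx hy
  obtain ⟨a, rfl⟩ := AddSubgroup.mem_zmultiples_iff.mp hx
  obtain ⟨b, hb⟩ := AddSubgroup.mem_zmultiples_iff.mp hy
  obtain ⟨⟨c, rfl⟩, -⟩ := hPQ.indep a (-b) (by rw [neg_zsmul, hb, add_neg_cancel])
  rw [mul_comm, mul_zsmul, natCast_zsmul, hPQ.left, zsmul_zero]

lemma addOrderOf_left : addOrderOf P = n := by
  refine Nat.dvd_antisymm (addOrderOf_dvd_of_nsmul_eq_zero hPQ.left) ?_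
  refine Int.natCast_dvd_natCast.mp (hPQ.indep (addOrderOf P : ℤ) 0 ?_).1
  rw [natCast_zsmul, addOrderOf_nsmul_eq_zero, zero_zsmul, add_zero]

lemma exists_eq (hΔ : W.Δ ≠ 0) (hn : (n : F) ≠ 0) {T : W.Point} (hT : n • T = 0) :
    ∃ a b : ℕ, T = a • P + b • Q := by
  have hn0 : n ≠ 0 := fun h => hn (by rw [h, Nat.cast_zero])
  have : NeZero n := ⟨hn0⟩
  let j : Fin n × Fin n → Submodule.torsionBy ℤ W.Point n := fun ab =>
    ⟨(ab.1 : ℕ) • P + (ab.2 : ℕ) • Q, by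
      rw [Submodule.mem_torsionBy_iff, natCast_zsmul, nsmul_add, smul_comm, hPQ.left,
        smul_comm n _ Q, hPQ.right, nsmul_zero, nsmul_zero, add_zero]⟩
  have hj : Function.Injective j := by
    rintro ⟨a, b⟩ ⟨c, d⟩ h
    have h' := congr_arg Subtype.val h
    simp only [j] at h'
    obtain ⟨h1, h2⟩ := hPQ.indep ((a : ℤ) - c) ((b : ℤ) - d) (by
      simp only [sub_zsmul, natCast_zsmul]
      rw [show (a : ℕ) • P + -((c : ℕ) • P) + ((b : ℕ) • Q + -((d : ℕ) • Q)) =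
        (a : ℕ) • P + (b : ℕ) • Q - ((c : ℕ) • P + (d : ℕ) • Q) by abel, h', sub_self])
    have key : ∀ {x y : Fin n}, (n : ℤ) ∣ (x : ℤ) - y → x = y := fun {x y} h =>
      Fin.ext (Int.natCast_inj.mp (sub_eq_zero.mp (Int.eq_zero_of_abs_lt_dvd h (by
        rw [abs_lt]; constructor <;> linarith [(Int.ofNat_lt.mpr x.isLt),
          (Int.ofNat_lt.mpr y.isLt), Int.natCast_nonneg (x : ℕ), Int.natCast_nonneg (y : ℕ)]))))
    exact Prod.ext (key h1) (key h2)
  have : Finite (Submodule.torsionBy ℤ W.Point n) := ECTorsion.finite_torsionBy hΔ hn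
  have hbij := (Nat.bijective_iff_injective_and_card j).mpr ⟨hj, by
    rw [Nat.card_prod, Nat.card_fin, ECTorsion.natCard_torsionBy hΔ hn, sq]⟩
  obtain ⟨⟨a, b⟩, hab⟩ := hbij.2 ⟨T, by rwa [Submodule.mem_torsionBy_iff, natCast_zsmul]⟩
  exact ⟨a, b, (congr_arg Subtype.val hab).symm⟩

lemma pairG_add_of_mem {R : (bigCurve W).Point} (hR : IsMoving R) {T : W.Point}
    (hT : T ∈ AddSubgroup.zmultiples Q) :
    pairG n (bigIncl W P) (R + bigIncl W T) =
      pairG n (bigIncl W P) R * pairG n (bigIncl W P) (bigIncl W T) := by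
  have hnT : n • T = 0 := by
    obtain ⟨b, rfl⟩ := AddSubgroup.mem_zmultiples_iff.mp hT
    rw [← natCast_zsmul, smul_comm, natCast_zsmul, hPQ.right, zsmul_zero]
  have hd : Disjoint ((AddSubgroup.zmultiples P).map (bigIncl W))
      (AddSubgroup.zmultiples R ⊔ (AddSubgroup.zmultiples Q).map (bigIncl W)) := by
    rw [AddSubgroup.disjoint_def]
    rintro x ⟨u, hu, rfl⟩ hx
    obtain ⟨y, hy, _, ⟨v, hv, rfl⟩, hxy⟩ := AddSubgroup.mem_sup.mp hx
    obtain ⟨z, rfl⟩ := AddSubgroup.mem_zmultiples_iff.mp hy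
    have hz : z = 0 := hR z ⟨u - v, by rw [map_sub, ← hxy, add_sub_cancel_right]⟩
    rw [hz, zero_zsmul, zero_add] at hxy
    have huv : v = u := pointMapTo_injective _ _ hxy
    rw [AddSubgroup.disjoint_def.mp hPQ.disjoint hu (huv ▸ hv), map_zero]
  exact pairG_add hd (by rw [← map_nsmul, hPQ.left, map_zero])
    ⟨P, AddSubgroup.mem_zmultiples P, rfl⟩
    (AddSubgroup.mem_sup_left (AddSubgroup.mem_zmultiples R))
    (AddSubgroup.mem_sup_right ⟨T, hT, rfl⟩) (by rw [← map_nsmul, hnT, map_zero])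

lemma hasTransl_of_mem {T : W.Point} (hT : T ∈ AddSubgroup.zmultiples Q) : HasTransl n P T :=
  ⟨_, fun R hR => by rw [hPQ.pairG_add_of_mem hR hT, mul_comm]⟩

lemma pairVal_eq (hΔ : W.Δ ≠ 0) : pairVal hΔ n P Q = bigConst W (pairG n P Q) := by
  have hG := isMoving_bigPoint hΔ
  rw [pairVal, hPQ.pairG_add_of_mem hG (AddSubgroup.mem_zmultiples Q),
    mul_div_cancel_left₀ _ (pairG_bigIncl_ne_zero hG P), bigIncl, pairG_pointMapTo]

lemma hasTransl_left (hΔ : W.Δ ≠ 0) (hn : (n : F) ≠ 0) {T : W.Point} (hT : n • T = 0) :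
    HasTransl n P T := by
  obtain ⟨a, b, rfl⟩ := hPQ.exists_eq hΔ hn hT
  have h : a • P + b • Q = a • (P + Q) + ((b : ℤ) - a) • Q := by
    rw [sub_zsmul, natCast_zsmul, natCast_zsmul, nsmul_add]
    abel
  rw [h]
  exact (hPQ.shear.hasTransl_of_mem
      (nsmul_mem (AddSubgroup.mem_zmultiples (P + Q)) a)).add_right
    (hPQ.hasTransl_of_mem (zsmul_mem (AddSubgroup.mem_zmultiples Q) _))

lemma hasTransl (hΔ : W.Δ ≠ 0) (hn : (n : F) ≠ 0) {S T : W.Point} (hS : n • S = 0)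
    (hT : n • T = 0) : HasTransl n S T := by
  obtain ⟨a, b, rfl⟩ := hPQ.exists_eq hΔ hn hS
  have key : ∀ {U : W.Point}, n • U = 0 → HasTransl n U T → ∀ k : ℕ,
      n • (k • U) = 0 ∧ HasTransl n (k • U) T := by
    intro U hU hUT k
    induction k with
    | zero => simp [hasTransl_zero_left]
    | succ k ih =>
      rw [succ_nsmul]
      exact ⟨by rw [nsmul_add, ih.1, hU, add_zero], ih.2.add_left hΔ ih.1 hU hT hUT⟩
  obtain ⟨ha, ha'⟩ := key hPQ.left (hPQ.hasTransl_left hΔ hn hT) a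
  obtain ⟨hb, hb'⟩ := key hPQ.right (hPQ.swap.hasTransl_left hΔ hn hT) b
  exact ha'.add_left hΔ ha hb hT hb'

variable (hΔ) (hn : (n : F) ≠ 0)
include hΔ hn

lemma pairVal_add_left' {S₁ S₂ T : W.Point} (h₁ : n • S₁ = 0) (h₂ : n • S₂ = 0)
    (hT : n • T = 0) :
    pairVal hΔ n (S₁ + S₂) T = pairVal hΔ n S₁ T * pairVal hΔ n S₂ T :=
  pairVal_add_left h₁ h₂ hT (hPQ.hasTransl hΔ hn h₁ hT) (hPQ.hasTransl hΔ hn h₂ hT)

lemma pairVal_add_right' {S T₁ T₂ : W.Point} (hS : n • S = 0) (h₁ : n • T₁ = 0)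
    (h₂ : n • T₂ = 0) :
    pairVal hΔ n S (T₁ + T₂) = pairVal hΔ n S T₁ * pairVal hΔ n S T₂ :=
  pairVal_add_right (hPQ.hasTransl hΔ hn hS h₁) (hPQ.hasTransl hΔ hn hS h₂)

lemma pairVal_ne_zero (S T : W.Point) : pairVal hΔ n S T ≠ 0 :=
  div_ne_zero (pairG_bigIncl_ne_zero ((isMoving_bigPoint hΔ).add_bigIncl T) S)
    (pairG_bigIncl_ne_zero (isMoving_bigPoint hΔ) S)

lemma pairVal_zero_left (T : W.Point) : pairVal hΔ n 0 T = 1 := by
  rw [pairVal, map_zero, pairG_zero_left ((isMoving_bigPoint hΔ).add_bigIncl T),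
    pairG_zero_left (isMoving_bigPoint hΔ), div_one]

lemma pairVal_zero_right (S : W.Point) : pairVal hΔ n S 0 = 1 := by
  rw [pairVal, map_zero, add_zero, div_self (pairG_bigIncl_ne_zero (isMoving_bigPoint hΔ) S)]

lemma pairVal_zsmul_left {S T : W.Point} (hS : n • S = 0) (hT : n • T = 0) (a : ℤ) :
    pairVal hΔ n (a • S) T = pairVal hΔ n S T ^ a := by
  have hk : ∀ k : ℤ, n • (k • S) = 0 := fun k => by
    rw [← natCast_zsmul, smul_comm, natCast_zsmul, hS, zsmul_zero]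
  induction a using Int.induction_on with
  | zero => rw [zero_zsmul, hPQ.pairVal_zero_left hΔ hn, zpow_zero]
  | succ k ih =>
    rw [add_zsmul, one_zsmul, hPQ.pairVal_add_left' hΔ hn (hk _) hS hT, ih,
      zpow_add_one₀ (hPQ.pairVal_ne_zero hΔ hn S T)]
  | pred k ih =>
    refine mul_right_cancel₀ (hPQ.pairVal_ne_zero hΔ hn S T) ?_
    rw [← hPQ.pairVal_add_left' hΔ hn (hk _) hS hT, ← zpow_add_one₀
      (hPQ.pairVal_ne_zero hΔ hn S T), ← add_one_zsmul, sub_add_cancel, ih]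

lemma pairVal_zsmul_right {S T : W.Point} (hS : n • S = 0) (hT : n • T = 0) (a : ℤ) :
    pairVal hΔ n S (a • T) = pairVal hΔ n S T ^ a := by
  have hk : ∀ k : ℤ, n • (k • T) = 0 := fun k => by
    rw [← natCast_zsmul, smul_comm, natCast_zsmul, hT, zsmul_zero]
  induction a using Int.induction_on with
  | zero => rw [zero_zsmul, hPQ.pairVal_zero_right hΔ hn, zpow_zero]
  | succ k ih =>
    rw [add_zsmul, one_zsmul, hPQ.pairVal_add_right' hΔ hn hS (hk _) hT, ih,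
      zpow_add_one₀ (hPQ.pairVal_ne_zero hΔ hn S T)]
  | pred k ih =>
    refine mul_right_cancel₀ (hPQ.pairVal_ne_zero hΔ hn S T) ?_
    rw [← hPQ.pairVal_add_right' hΔ hn hS (hk _) hT, ← zpow_add_one₀
      (hPQ.pairVal_ne_zero hΔ hn S T), ← add_one_zsmul, sub_add_cancel, ih]

lemma pairVal_pow_eq_one : pairVal hΔ n P Q ^ n = 1 := by
  rw [← zpow_natCast, ← hPQ.pairVal_zsmul_left hΔ hn hPQ.left hPQ.right, natCast_zsmul, hPQ.left,
    hPQ.pairVal_zero_left hΔ hn]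

lemma pairVal_swap_mul : pairVal hΔ n P Q * pairVal hΔ n Q P = 1 := by
  have hn1 : n ≠ 0 := fun h => hn (by rw [h, Nat.cast_zero])
  rw [hPQ.pairVal_eq, hPQ.swap.pairVal_eq, ← map_mul]
  by_cases hn' : n = 1
  · have hP : P = 0 := by simpa [hn'] using hPQ.left
    have hQ : Q = 0 := by simpa [hn'] using hPQ.right
    simp [hP, hQ, pairG_zero_right]
  have hne : ∀ {X Y : W.Point}, IsTorsionBasis n X Y → X ≠ 0 := fun h e => hn' (by
    rw [← h.addOrderOf_left, e, addOrderOf_zero])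
  rw [pairG_mul_pairG_swap hPQ.disjoint (AddSubgroup.mem_zmultiples P)
    (AddSubgroup.mem_zmultiples Q) (hne hPQ) (hne hPQ.swap)
    (by rw [hPQ.addOrderOf_left, hPQ.swap.addOrderOf_left]), map_one]

lemma pairVal_self (hodd : Odd n) : pairVal hΔ n P P = 1 := by
  have hs := hPQ.shear
  have hswap := hs.pairVal_swap_mul hΔ hn
  rw [hPQ.pairVal_add_right' hΔ hn hPQ.left hPQ.left hPQ.right,
    hPQ.pairVal_add_left' hΔ hn hPQ.left hPQ.right hPQ.left] at hswap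
  have h2 : pairVal hΔ n P P ^ 2 = 1 := by
    linear_combination (norm := ring1) hswap -
      pairVal hΔ n P P * pairVal hΔ n P P * hPQ.pairVal_swap_mul hΔ hn
  have hpn : pairVal hΔ n P P ^ n = 1 := by
    rw [← zpow_natCast, ← hPQ.pairVal_zsmul_left hΔ hn hPQ.left hPQ.left, natCast_zsmul,
      hPQ.left, hPQ.pairVal_zero_left hΔ hn]
  obtain ⟨k, hk⟩ := hodd
  subst hk
  rw [pow_succ, pow_mul, h2, one_pow, one_mul] at hpn
  exact hpn

lemma pairVal_primitive (hodd : Odd n) {m : ℤ} (hm : pairVal hΔ n P Q ^ m = 1) :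
    (n : ℤ) ∣ m := by
  have hmP : n • (m • P) = 0 := by
    rw [← natCast_zsmul, smul_comm, natCast_zsmul, hPQ.left, zsmul_zero]
  refine (hPQ.indep m 0 ?_).1
  rw [zero_zsmul, add_zero]
  refine eq_zero_of_pairG_invariant hΔ hn hmP fun T hT => ?_
  have hone : pairVal hΔ n (m • P) T = 1 := by
    obtain ⟨a, b, rfl⟩ := hPQ.exists_eq hΔ hn hT
    have hk : ∀ {U : W.Point}, n • U = 0 → ∀ k : ℕ, n • (k • U) = 0 := fun hU k => by
      rw [smul_comm, hU, nsmul_zero]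
    rw [hPQ.pairVal_add_right' hΔ hn hmP (hk hPQ.left a) (hk hPQ.right b), ← natCast_zsmul P a,
      ← natCast_zsmul Q b, hPQ.pairVal_zsmul_right hΔ hn hmP hPQ.left,
      hPQ.pairVal_zsmul_right hΔ hn hmP hPQ.right,
      hPQ.pairVal_zsmul_left hΔ hn hPQ.left hPQ.left,
      hPQ.pairVal_zsmul_left hΔ hn hPQ.left hPQ.right, hm, hPQ.pairVal_self hΔ hn hodd,
      one_zpow, one_zpow, one_mul, one_zpow]
  exact (div_eq_one_iff_eq (pairG_bigIncl_ne_zero (isMoving_bigPoint hΔ) _)).mp hone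

/-- The Weil pairing in coordinates: `e (aP + cQ, bP + dQ) = e (P, Q) ^ (ad - bc)`. -/
lemma pairVal_comb (hodd : Odd n) (a b c d : ℤ) :
    pairVal hΔ n (a • P + c • Q) (b • P + d • Q) = pairVal hΔ n P Q ^ (a * d - b * c) := by
  have hk : ∀ {U : W.Point}, n • U = 0 → ∀ k : ℤ, n • (k • U) = 0 := fun hU k => by
    rw [← natCast_zsmul, smul_comm, natCast_zsmul, hU, zsmul_zero]
  have hr : n • (b • P + d • Q) = 0 := by
    rw [nsmul_add, hk hPQ.left, hk hPQ.right, add_zero]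
  have hne := hPQ.pairVal_ne_zero hΔ hn P Q
  have hQP : pairVal hΔ n Q P = (pairVal hΔ n P Q)⁻¹ :=
    eq_inv_of_mul_eq_one_right (hPQ.pairVal_swap_mul hΔ hn)
  rw [hPQ.pairVal_add_left' hΔ hn (hk hPQ.left a) (hk hPQ.right c) hr,
    hPQ.pairVal_zsmul_left hΔ hn hPQ.left hr, hPQ.pairVal_zsmul_left hΔ hn hPQ.right hr,
    hPQ.pairVal_add_right' hΔ hn hPQ.left (hk hPQ.left b) (hk hPQ.right d),
    hPQ.pairVal_add_right' hΔ hn hPQ.right (hk hPQ.left b) (hk hPQ.right d),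
    hPQ.pairVal_zsmul_right hΔ hn hPQ.left hPQ.left,
    hPQ.pairVal_zsmul_right hΔ hn hPQ.left hPQ.right,
    hPQ.pairVal_zsmul_right hΔ hn hPQ.right hPQ.left,
    hPQ.pairVal_zsmul_right hΔ hn hPQ.right hPQ.right, hPQ.pairVal_self hΔ hn hodd,
    hPQ.swap.pairVal_self hΔ hn hodd, hQP]
  simp only [one_zpow, one_mul, mul_one, inv_zpow', ← zpow_mul]
  rw [← zpow_add₀ hne]
  congr 1
  ring

/-- **The determinant of a semilinear automorphism on `E[n]` is the cyclotomic character**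
(`n` odd). -/
theorem dvd_det_sub (hodd : Odd n) (σ : F →+* F) (hσ : W.map σ = W) {a b c d : ℤ}
    (hσP : pointMapTo σ hσ P = a • P + c • Q) (hσQ : pointMapTo σ hσ Q = b • P + d • Q) {m : ℕ}
    (hm : ∀ ζ : F, ζ ^ n = 1 → σ ζ = ζ ^ m) : (n : ℤ) ∣ a * d - b * c - m := by
  have himg : IsTorsionBasis n (pointMapTo σ hσ P) (pointMapTo σ hσ Q) := by
    refine ⟨by rw [← map_nsmul, hPQ.left, map_zero], by rw [← map_nsmul, hPQ.right, map_zero],
      fun x y h => hPQ.indep x y ?_⟩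
    rwa [← map_zsmul, ← map_zsmul, ← map_add, pointMapTo_eq_zero_iff] at h
  have hζ : pairG n P Q ^ n = 1 := by
    refine (bigConst W).injective ?_
    rw [map_pow, ← hPQ.pairVal_eq hΔ, hPQ.pairVal_pow_eq_one hΔ hn, map_one]
  have h : pairVal hΔ n P Q ^ (a * d - b * c) = pairVal hΔ n P Q ^ (m : ℤ) := by
    rw [zpow_natCast, ← hPQ.pairVal_comb hΔ hn hodd a b c d, ← hσP, ← hσQ,
      himg.pairVal_eq hΔ, hPQ.pairVal_eq hΔ, pairG_pointMapTo, hm _ hζ, map_pow]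
  refine hPQ.pairVal_primitive hΔ hn hodd (m := a * d - b * c - m) ?_
  rw [zpow_sub₀ (hPQ.pairVal_ne_zero hΔ hn P Q), h,
    div_self (zpow_ne_zero _ (hPQ.pairVal_ne_zero hΔ hn P Q))]

end IsTorsionBasis

end Fermat.Agent.WeilPairing
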