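import Fermat.Prelude.Def_FreyPackage_DetCyclotomic
import Fermat.Agent.WeilPairing.Bilinear
import Mathlib.LinearAlgebra.Determinant
import Mathlib.LinearAlgebra.Dimension.Free
import Mathlib.Algebra.CharP.Defs

/-!
# The determinant of the Galois action on `E[p]` is the mod `p` cyclotomic character
-/

namespace Fermat.Agent.WeilPairing

set_option linter.unusedSectionVars false

open WeierstrassCurve WeierstrassCurve.Affine WeierstrassCurve.Affine.Point
open scoped WeierstrassCurve.Affine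

universe r s v

variable {R : Type r} {S : Type s} {K : Type v} [CommRing R] [CommRing S] [Field K]
  [DecidableEq K] [Algebra R S] [Algebra R K] [Algebra S K] [IsScalarTower R S K]

omit [DecidableEq K] [Algebra R S] [Algebra S K] [IsScalarTower R S K] in
lemma baseChange_delta_ne_zero (W : WeierstrassCurve.Affine R) (hΔ : algebraMap R K W.Δ ≠ 0) :
    (W⁄K).Δ ≠ 0 :=
  fun h => hΔ ((WeierstrassCurve.map_Δ W (algebraMap R K)).symm.trans h)

omit [DecidableEq K] in
lemma map_baseChange_algEquiv (W : WeierstrassCurve.Affine R) (σ : K ≃ₐ[S] K) :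
    (W⁄K).map (σ : K →+* K) = W⁄K :=
  WeierstrassCurve.Affine.map_baseChange W σ.toAlgHom

lemma smul_eq_pointMapTo {W : WeierstrassCurve.Affine R} (σ : K ≃ₐ[S] K) (P : (W⁄K).Point) :
    σ • P = pointMapTo (σ : K →+* K) (map_baseChange_algEquiv W σ) P := by
  cases P <;> rfl

/-- For odd `n`: if `σ` has matrix `(a, b; c, d)` on a basis of `W[n]` and raises `n`-th roots of
unity to the power `m`, then `ad - bc ≡ m mod n`. -/
theorem dvd_det_sub_of_odd [IsAlgClosed K] {W : WeierstrassCurve.Affine R}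
    (hΔ : algebraMap R K W.Δ ≠ 0) {n : ℕ} (hn : (n : K) ≠ 0) (hodd : Odd n)
    {P Q : (W⁄K).Point} (hPQ : IsTorsionBasis n P Q) (σ : K ≃ₐ[S] K) {a b c d : ℤ}
    (hσP : σ • P = a • P + c • Q) (hσQ : σ • Q = b • P + d • Q) {m : ℕ}
    (hm : ∀ ζ : K, ζ ^ n = 1 → σ ζ = ζ ^ m) : (n : ℤ) ∣ a * d - b * c - m :=
  hPQ.dvd_det_sub (baseChange_delta_ne_zero W hΔ) hn hodd (σ : K →+* K)
    (map_baseChange_algEquiv W σ) ((smul_eq_pointMapTo σ P).symm.trans hσP)
    ((smul_eq_pointMapTo σ Q).symm.trans hσQ) hm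

variable (S) in
/-- The determinant of the Galois representation on `W[p]` is the cyclotomic character. -/
theorem galoisRepDetEqCyclotomic [IsAlgClosed K] (W : WeierstrassCurve.Affine R)
    (hΔ : algebraMap R K W.Δ ≠ 0) (p : ℕ) [Fact p.Prime] [NeZero p] (hp : (p : K) ≠ 0)
    (hn : Nat.card (rootsOfUnity p K) = p) :
    GaloisRepDetEqCyclotomic (K := K) S W p hn := by
  rcases (Fact.out : p.Prime).eq_two_or_odd' with rfl | hodd
  · exact galoisRepDetEqCyclotomic_two hn
  intro σ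
  set E := Submodule.torsionBy ℤ (W⁄K).Point p
  have hcard : Nat.card E = p ^ 2 :=
    ECTorsion.natCard_torsionBy (baseChange_delta_ne_zero W hΔ) hp
  have hfin : Finite E := ECTorsion.finite_torsionBy (baseChange_delta_ne_zero W hΔ) hp
  have hrank : Module.finrank (ZMod p) E = 2 := by
    have h := Module.natCard_eq_pow_finrank (K := ZMod p) (V := E)
    rw [hcard, Nat.card_zmod] at h
    exact (Nat.pow_right_injective (Fact.out : p.Prime).two_le h).symm
  let B := Module.finBasisOfFinrankEq (ZMod p) E hrank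
  have hcast : ∀ (x : ℤ) (v : E), (((x : ZMod p) • v : E) : (W⁄K).Point) = x • (v : (W⁄K).Point) :=
    fun x v => by rw [Int.cast_smul_eq_zsmul, Submodule.coe_smul_of_tower]
  have hPQ : IsTorsionBasis p (B 0 : (W⁄K).Point) (B 1 : (W⁄K).Point) := by
    have htor : ∀ v : E, p • (v : (W⁄K).Point) = 0 := fun v => by
      have h := v.2
      rwa [Submodule.mem_torsionBy_iff, natCast_zsmul] at h
    refine ⟨htor _, htor _, fun a b h => ?_⟩
    have h' : (a : ZMod p) • B 0 + (b : ZMod p) • B 1 = 0 := Subtype.ext (by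
      rw [Submodule.coe_add, hcast, hcast, h]; rfl)
    have hli := Fintype.linearIndependent_iff.mp B.linearIndependent ![(a : ZMod p), (b : ZMod p)]
      (by rw [Fin.sum_univ_two]; exact h')
    exact ⟨(ZMod.intCast_zmod_eq_zero_iff_dvd a p).mp (hli 0),
      (ZMod.intCast_zmod_eq_zero_iff_dvd b p).mp (hli 1)⟩
  set M := LinearMap.toMatrix B B (galoisRep (S := S) (K := K) W p σ).toLinearMap with hM
  let e : Fin 2 → Fin 2 → ℤ := fun i j => ((M i j).val : ℤ)
  have he : ∀ i j, ((e i j : ℤ) : ZMod p) = M i j := fun i j => by simp [e]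
  have hcol : ∀ j, σ • (B j : (W⁄K).Point) =
      e 0 j • (B 0 : (W⁄K).Point) + e 1 j • (B 1 : (W⁄K).Point) := by
    intro j
    have h := B.sum_repr (galoisRep (S := S) (K := K) W p σ (B j))
    rw [Fin.sum_univ_two] at h
    have hrepr : ∀ i, B.repr (galoisRep (S := S) (K := K) W p σ (B j)) i = (e i j : ZMod p) :=
      fun i => by rw [he, hM, LinearMap.toMatrix_apply]; rfl
    rw [hrepr, hrepr] at h
    have h' := congr_arg Subtype.val h
    rw [Submodule.coe_add, hcast, hcast] at h'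
    exact h'.symm
  have hm : ∀ ζ : K, ζ ^ p = 1 → σ ζ =
      ζ ^ ((modularCyclotomicCharacter K hn (σ : K ≃+* K) : (ZMod p)ˣ) : ZMod p).val := by
    intro ζ hζ
    have hu : IsUnit ζ := IsUnit.of_pow_eq_one hζ (NeZero.ne p)
    have h := modularCyclotomicCharacter.spec K hn (σ : K ≃+* K) (t := hu.unit)
      ((mem_rootsOfUnity _ _).mpr (Units.ext (by simpa using hζ)))
    simpa using h
  have hdvd := dvd_det_sub_of_odd hΔ hp hodd hPQ σ (hcol 0) (hcol 1) hm
  have h := (ZMod.intCast_zmod_eq_zero_iff_dvd _ p).mpr hdvd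
  simp only [Int.cast_sub, Int.cast_mul, he, Int.cast_natCast, ZMod.natCast_zmod_val] at h
  refine Units.ext ?_
  rw [galoisRepDet_apply, LinearEquiv.coe_det, ← LinearMap.det_toMatrix B, ← hM,
    Matrix.det_fin_two]
  exact sub_eq_zero.mp h

/-- Unfolded form: `det (σ | W[p]) = χ_p σ` in `(ZMod p)ˣ`. -/
theorem det_galoisRep_eq_cyclotomic [IsAlgClosed K] (W : WeierstrassCurve.Affine R)
    (hΔ : algebraMap R K W.Δ ≠ 0) (p : ℕ) [Fact p.Prime] [NeZero p] (hp : (p : K) ≠ 0)
    (hn : Nat.card (rootsOfUnity p K) = p) (σ : K ≃ₐ[S] K) :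
    LinearEquiv.det (galoisRep (S := S) (K := K) W p σ) =
      modularCyclotomicCharacter K hn (σ : K ≃+* K) :=
  galoisRepDetEqCyclotomic S W hΔ p hp hn σ

/-- If `ζ ↦ ζ ^ q` on `p`-th roots of unity under `σ` (e.g. a Frobenius at `q`), then
`det (σ | W[p]) = q`. -/
theorem det_galoisRep_eq_natCast [IsAlgClosed K] (W : WeierstrassCurve.Affine R)
    (hΔ : algebraMap R K W.Δ ≠ 0) (p : ℕ) [Fact p.Prime] (hp : (p : K) ≠ 0)
    (σ : K ≃ₐ[S] K) {q : ℕ} (hσ : ∀ ζ : K, ζ ^ p = 1 → σ ζ = ζ ^ q) :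
    ((LinearEquiv.det (galoisRep (S := S) (K := K) W p σ) : (ZMod p)ˣ) : ZMod p) = q := by
  have : NeZero p := ⟨(Fact.out : p.Prime).ne_zero⟩
  have : NeZero (p : K) := ⟨hp⟩
  have hn : Nat.card (rootsOfUnity p K) = p := HasEnoughRootsOfUnity.natCard_rootsOfUnity K p
  rw [det_galoisRep_eq_cyclotomic W hΔ p hp hn σ]
  refine (modularCyclotomicCharacter.unique K hn _ (c := (q : ZMod p)) fun t ht => ?_).symm
  have ht' : (t : K) ^ p = 1 := by
    have := congr_arg Units.val ((mem_rootsOfUnity _ _).mp ht)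
    simpa using this
  change σ (t : K) = _
  rw [hσ _ ht', ZMod.val_natCast]
  exact pow_eq_pow_mod q ht'

open scoped Classical in
/-- A Weil pairing on `W[p]` over an algebraically closed field, equivariant for all
`S`-automorphisms of `K`. -/
theorem exists_weilPairing [IsAlgClosed K] (W : WeierstrassCurve.Affine R)
    (hΔ : algebraMap R K W.Δ ≠ 0) {p : ℕ} [Fact p.Prime] (hp : (p : K) ≠ 0) :
    ∃ e : Submodule.torsionBy ℤ (W⁄K).Point p → Submodule.torsionBy ℤ (W⁄K).Point p → Kˣ,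
      (∀ P Q, e P Q ^ p = 1) ∧ (∀ P P' Q, e (P + P') Q = e P Q * e P' Q) ∧
      (∀ P Q Q', e P (Q + Q') = e P Q * e P Q') ∧ (∀ P, e P P = 1) ∧
      (∀ P, (∀ Q, e P Q = 1) → P = 0) ∧
      ∀ (σ : K ≃ₐ[S] K) P Q, (e (σ • P) (σ • Q) : K) = σ (e P Q : K) := by
  have : NeZero p := ⟨(Fact.out : p.Prime).ne_zero⟩
  have : NeZero (p : K) := ⟨hp⟩
  have hn : Nat.card (rootsOfUnity p K) = p := HasEnoughRootsOfUnity.natCard_rootsOfUnity K p
  set E := Submodule.torsionBy ℤ (W⁄K).Point p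
  have hfin : Finite E := ECTorsion.finite_torsionBy (baseChange_delta_ne_zero W hΔ) hp
  have hrank : Module.finrank (ZMod p) E = 2 := by
    have h := Module.natCard_eq_pow_finrank (K := ZMod p) (V := E)
    rw [ECTorsion.natCard_torsionBy (baseChange_delta_ne_zero W hΔ) hp, Nat.card_zmod] at h
    exact (Nat.pow_right_injective (Fact.out : p.Prime).two_le h).symm
  let B := Module.finBasisOfFinrankEq (ZMod p) E hrank
  obtain ⟨ζ, hζ⟩ := HasEnoughRootsOfUnity.exists_primitiveRoot K p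
  obtain ⟨ζu, rfl⟩ := hζ.isUnit (NeZero.ne p)
  have hζu : IsPrimitiveRoot ζu p := IsPrimitiveRoot.coe_units_iff.mp hζ
  let z : ZMod p → Kˣ := fun x => ζu ^ x.val
  have hz : ∀ x y, z (x + y) = z x * z y := fun x y => by
    simp only [z, ← pow_add, ZMod.val_add]
    exact (pow_eq_pow_mod _ hζu.pow_eq_one).symm
  have hsplit : ∀ u v : E, B.det ![u, v] = B.repr u 0 * B.repr v 1 - B.repr v 0 * B.repr u 1 :=
    fun u v => by
      rw [Module.Basis.det_apply, Matrix.det_fin_two]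
      simp [Module.Basis.toMatrix_apply]
  refine ⟨fun u v => z (B.det ![u, v]), fun P Q => ?_, fun P P' Q => ?_, fun P Q Q' => ?_,
    fun P => ?_, fun P h => ?_, fun σ P Q => ?_⟩
  · simp only [z, ← pow_mul]
    rw [mul_comm, pow_mul, hζu.pow_eq_one, one_pow]
  · rw [← hz]
    simp only [hsplit, map_add, Finsupp.add_apply]
    ring_nf
  · rw [← hz]
    simp only [hsplit, map_add, Finsupp.add_apply]
    ring_nf
  · simp [z, hsplit]
  · have hzero : ∀ x, z x = 1 → x = 0 := fun x hx =>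
      (ZMod.val_eq_zero x).mp (Nat.eq_zero_of_dvd_of_lt (hζu.dvd_of_pow_eq_one _ hx) x.val_lt)
    have h0 := hzero _ (h (B 0))
    have h1 := hzero _ (h (B 1))
    simp [hsplit] at h0 h1
    refine B.repr.injective (Finsupp.ext fun i => ?_)
    fin_cases i <;> simp [h0, h1]
  · have hdet : B.det ![σ • P, σ • Q] =
        ((modularCyclotomicCharacter K hn (σ : K ≃+* K) : (ZMod p)ˣ) : ZMod p) *
          B.det ![P, Q] := by
      have hcomp : ![σ • P, σ • Q] =
          (galoisRep (S := S) (K := K) W p σ).toLinearMap ∘ ![P, Q] := by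
        funext i; fin_cases i <;> rfl
      rw [hcomp, Module.Basis.det_comp, ← LinearEquiv.coe_det,
        det_galoisRep_eq_cyclotomic W hΔ p hp hn σ]
    simp only [z, hdet, ZMod.val_mul, Units.val_pow_eq_pow_val, map_pow]
    have hpow : (ζu : K) ^ p = 1 := hζ.pow_eq_one
    rw [← pow_eq_pow_mod _ hpow,
      show σ (ζu : K) = (σ : K ≃+* K) (ζu : K) from rfl,
      modularCyclotomicCharacter.spec K hn (σ : K ≃+* K) (t := ζu)
        ((mem_rootsOfUnity _ _).mpr hζu.pow_eq_one),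
      ← pow_mul]

section Rat

variable (W : WeierstrassCurve ℚ)

theorem galoisRepDetEqCyclotomic_qbar (hΔ : W.Δ ≠ 0) (p : ℕ) [Fact p.Prime] [NeZero p]
    (hn : Nat.card (rootsOfUnity p (AlgebraicClosure ℚ)) = p) :
    GaloisRepDetEqCyclotomic (K := AlgebraicClosure ℚ) ℚ W p hn :=
  galoisRepDetEqCyclotomic ℚ W
    ((map_ne_zero_iff _ (algebraMap ℚ (AlgebraicClosure ℚ)).injective).mpr hΔ) p
    (Nat.cast_ne_zero.mpr (Fact.out : p.Prime).ne_zero) hn

theorem freyCurve_discr_ne_zero (P : FreyPackage) : P.freyCurve.Δ ≠ 0 := by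
  have hflt : (P.a : ℚ) ^ P.p + (P.b : ℚ) ^ P.p = (P.c : ℚ) ^ P.p := by exact_mod_cast P.hFLT
  have h : 256 * P.freyCurve.Δ = ((P.a : ℚ) * P.b * P.c) ^ (2 * P.p) := by
    simp only [FreyPackage.freyCurve, WeierstrassCurve.Δ, WeierstrassCurve.b₂, WeierstrassCurve.b₄,
      WeierstrassCurve.b₆, WeierstrassCurve.b₈]
    rw [pow_mul', mul_pow, mul_pow, ← hflt]
    ring
  intro h0
  rw [h0, mul_zero] at h
  exact pow_ne_zero _ (by exact_mod_cast P.habc0) h.symm

theorem det_freyGaloisRep (P : FreyPackage)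
    (σ : AlgebraicClosure ℚ ≃ₐ[ℚ] AlgebraicClosure ℚ) :
    haveI : NeZero P.p := ⟨P.pp.ne_zero⟩
    galoisRepDet (S := ℚ) (K := AlgebraicClosure ℚ) P.freyCurve P.p σ =
      modularCyclotomicCharacter (AlgebraicClosure ℚ) P.card_rootsOfUnity_algebraicClosure
        (σ : AlgebraicClosure ℚ ≃+* AlgebraicClosure ℚ) :=
  haveI : Fact P.p.Prime := ⟨P.pp⟩
  haveI : NeZero P.p := ⟨P.pp.ne_zero⟩
  galoisRepDetEqCyclotomic_qbar _ (freyCurve_discr_ne_zero P) P.p
    P.card_rootsOfUnity_algebraicClosure σ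

end Rat

end Fermat.Agent.WeilPairing
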