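import Fermat.Agent.WeilPairing.Pairing
import Mathlib.FieldTheory.IsAlgClosed.Basic

/-!
# Functoriality of the Miller functions in the field
-/

namespace Fermat.Agent.WeilPairing

open WeierstrassCurve WeierstrassCurve.Affine

set_option linter.unusedSectionVars false

variable {F L : Type*} [Field F] [Field L] [DecidableEq F] [DecidableEq L]
  {W : WeierstrassCurve.Affine F} {W₂ : WeierstrassCurve.Affine L}

/-- The map on points induced by a ring homomorphism of fields sending `W` to `W₂`. -/
noncomputable def pointMapTo (f : F →+* L) (h : W.map f = W₂) : W.Point →+ W₂.Point where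
  toFun P := match P with
    | .zero => 0
    | .some x y hxy => .some (f x) (f y) (h ▸ (W.map_nonsingular f.injective x y).mpr hxy)
  map_zero' := rfl
  map_add' := by
    subst h
    rintro (_ | ⟨x₁, y₁, h₁⟩) (_ | ⟨x₂, y₂, h₂⟩)
    any_goals rfl
    by_cases hxy : x₁ = x₂ ∧ y₁ = W.negY x₂ y₂
    · rw [Point.add_of_Y_eq hxy.1 hxy.2,
        Point.add_of_Y_eq (congr_arg f hxy.1) (by rw [hxy.2, map_negY])]
    · have hxy' : ¬(f x₁ = f x₂ ∧ f y₁ = (W.map f).negY (f x₂) (f y₂)) := fun e =>
        hxy ⟨f.injective e.1, f.injective (by rw [e.2, map_negY])⟩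
      simp only [Point.add_some hxy, Point.add_some hxy', ← map_addX, ← map_addY, ← map_slope]

variable (f : F →+* L) (h : W.map f = W₂)

lemma pointMapTo_some {x y : F} (hxy : W.Nonsingular x y) :
    pointMapTo f h (Point.some x y hxy) =
      Point.some (f x) (f y) (h ▸ (W.map_nonsingular f.injective x y).mpr hxy) := rfl

lemma pointMapTo_injective : Function.Injective (pointMapTo f h) := by
  rintro (_ | ⟨x₁, y₁, h₁⟩) (_ | ⟨x₂, y₂, h₂⟩) e
  · rfl
  · exact absurd e.symm (Point.some_ne_zero _)
  · exact absurd e (Point.some_ne_zero _)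
  · rw [pointMapTo_some, pointMapTo_some, Point.some.injEq] at e
    simp only [Point.some.injEq]
    exact ⟨f.injective e.1, f.injective e.2⟩

@[simp] lemma pointMapTo_eq_zero_iff (P : W.Point) : pointMapTo f h P = 0 ↔ P = 0 :=
  map_eq_zero_iff _ (pointMapTo_injective f h)

@[simp] lemma ptX_pointMapTo (P : W.Point) : ptX (pointMapTo f h P) = f (ptX P) := by
  cases P with
  | zero => exact (map_zero f).symm
  | some x y hxy => rfl

@[simp] lemma ptY_pointMapTo (P : W.Point) : ptY (pointMapTo f h P) = f (ptY P) := by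
  cases P with
  | zero => exact (map_zero f).symm
  | some x y hxy => rfl

lemma isLinePair_pointMapTo (A B : W.Point) :
    IsLinePair (pointMapTo f h A) (pointMapTo f h B) ↔ IsLinePair A B := by
  simp [IsLinePair, ← map_add]

lemma lineVal_pointMapTo (A B Z : W.Point) :
    lineVal (pointMapTo f h A) (pointMapTo f h B) (pointMapTo f h Z) = f (lineVal A B Z) := by
  by_cases hZ : Z = 0
  · simp [hZ]
  have hZ' := (pointMapTo_eq_zero_iff f h Z).not.mpr hZ
  by_cases hA : A = 0
  · simp [hA]
  have hA' := (pointMapTo_eq_zero_iff f h A).not.mpr hA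
  by_cases hB : B = 0
  · simp [hB]
  by_cases hAB : A + B = 0
  · rw [lineVal_of_add_eq_zero hA' (by rw [← map_add, hAB, map_zero]) hZ',
      lineVal_of_add_eq_zero hA hAB hZ]
    simp
  · have hp : IsLinePair A B := ⟨hA, hB, hAB⟩
    rw [lineVal_of_isLinePair ((isLinePair_pointMapTo f h A B).mpr hp) hZ',
      lineVal_of_isLinePair hp hZ]
    have hs : ptSlope (pointMapTo f h A) (pointMapTo f h B) = f (ptSlope A B) := by
      subst h
      simp only [ptSlope, ptX_pointMapTo, ptY_pointMapTo]
      exact map_slope f (ptX A) (ptX B) (ptY A) (ptY B)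
    rw [← map_add (pointMapTo f h), ptX_pointMapTo f h (A + B)]
    simp only [hs, ptX_pointMapTo, ptY_pointMapTo, map_div₀, map_sub, map_add, map_mul]

lemma millerVal_pointMapTo (k : ℕ) (P Z : W.Point) :
    millerVal k (pointMapTo f h P) (pointMapTo f h Z) = f (millerVal k P Z) := by
  simp only [millerVal, map_prod, ← map_nsmul, lineVal_pointMapTo]

lemma kappa_pointMapTo (k : ℕ) (P : W.Point) :
    kappa k (pointMapTo f h P) = f (kappa k P) := by
  classical
  simp only [kappa, map_prod, ← map_nsmul, isLinePair_pointMapTo, apply_ite (f : F → L),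
    map_neg, map_one]

lemma millerPhi_pointMapTo (n : ℕ) (P Z : W.Point) :
    millerPhi n (pointMapTo f h P) (pointMapTo f h Z) = f (millerPhi n P Z) := by
  by_cases hZ : Z = 0
  · simp [hZ, millerPhi_zero]
  · rw [millerPhi_of_ne hZ, millerPhi_of_ne ((pointMapTo_eq_zero_iff f h Z).not.mpr hZ),
      kappa_pointMapTo, millerVal_pointMapTo, map_mul]

lemma pairG_pointMapTo (n : ℕ) (P Z : W.Point) :
    pairG n (pointMapTo f h P) (pointMapTo f h Z) = f (pairG n P Z) := by
  simp only [pairG, map_div₀, millerPhi_pointMapTo, millerVal_pointMapTo]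

lemma mem_range_pointMapTo [IsAlgClosed F] {Z : W₂.Point} (hx : ptX Z ∈ Set.range f) :
    Z ∈ Set.range (pointMapTo f h) := by
  cases Z with
  | zero => exact ⟨0, map_zero _⟩
  | some x y hxy =>
    obtain ⟨a, rfl⟩ := hx
    obtain ⟨b, hb⟩ : ∃ b, W.Equation a b := by
      obtain ⟨b, hb⟩ := IsAlgClosed.exists_root (W.polynomial.map (Polynomial.evalRingHom a))
        (by
          rw [Polynomial.Monic.degree_map (monic_polynomial), degree_polynomial]
          decide)
      refine ⟨b, ?_⟩
      rwa [Polynomial.IsRoot, Polynomial.eval_map, Polynomial.eval₂_evalRingHom] at hb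
    subst h
    have hb' := Equation.map f hb
    rcases Y_eq_of_X_eq hxy.1 hb' rfl with rfl | rfl
    · exact ⟨Point.some a b ((map_nonsingular W f.injective a b).mp hxy), rfl⟩
    · rw [map_negY] at hxy
      refine ⟨Point.some a (W.negY a b) ((map_nonsingular W f.injective _ _).mp hxy), ?_⟩
      rw [pointMapTo_some, Point.some.injEq]
      exact ⟨rfl, (map_negY f a b).symm⟩

end Fermat.Agent.WeilPairing
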