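import Fermat.Agent.WeilPairing.Pairing
import Mathlib.FieldTheory.IsAlgClosed.Basic
import Mathlib.RingTheory.Norm.Basic
import Mathlib.RingTheory.IntegralClosure.IntegrallyClosed

/-!
# The Miller function of a nonzero `n`-torsion point is not an `n`-th power
-/

namespace Fermat.Agent.WeilPairing

open Polynomial WeierstrassCurve WeierstrassCurve.Affine
open scoped Polynomial.Bivariate

set_option linter.unusedSectionVars false

variable {F : Type*} [Field F] {W : WeierstrassCurve.Affine F}

lemma evalAt_algebraMap {x y : F} (h : W.Equation x y) (p : F[X]) :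
    evalAt h (algebraMap F[X] W.CoordinateRing p) = p.eval x := by
  change evalAt h (CoordinateRing.mk W (C p)) = _
  rw [evalAt_mk]
  simp [evalEval]

lemma evalAt_smul_basis {x y : F} (h : W.Equation x y) (p q : F[X]) :
    evalAt h (p • (1 : W.CoordinateRing) + q • CoordinateRing.mk W Y) =
      p.eval x + q.eval x * y := by
  rw [map_add, Algebra.smul_def, Algebra.smul_def, map_mul, map_mul, evalAt_algebraMap,
    evalAt_algebraMap, map_one, evalAt_mk]
  simp [evalEval]

lemma exists_point_equation [IsAlgClosed F] (W : WeierstrassCurve.Affine F) (x : F) :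
    ∃ y, W.Equation x y := by
  obtain ⟨y, hy⟩ := IsAlgClosed.exists_root (W.polynomial.map (evalRingHom x))
    (by rw [Monic.degree_map monic_polynomial, degree_polynomial]; decide)
  refine ⟨y, ?_⟩
  rwa [IsRoot, eval_map, eval₂_evalRingHom] at hy

lemma norm_algebraMap_coordinateRing (d : F[X]) :
    Algebra.norm F[X] (algebraMap F[X] W.CoordinateRing d) = d ^ 2 := by
  rw [Algebra.norm_algebraMap_of_basis (CoordinateRing.basis W), Fintype.card_fin]

variable [IsAlgClosed F]

/-- The coordinate ring of a nonsingular curve is closed under `n`-th roots in its fraction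
field: the local step at a root of the denominator. -/
lemma dvd_and_dvd_of_pow (hΔ : W.Δ ≠ 0) {n : ℕ} (hn : n ≠ 0) (x : F) (p q : F[X])
    (g : W.CoordinateRing)
    (h : (p • (1 : W.CoordinateRing) + q • CoordinateRing.mk W Y) ^ n =
      algebraMap F[X] W.CoordinateRing ((X - C x) ^ n) * g) :
    X - C x ∣ p ∧ X - C x ∣ q := by
  have hz : ∀ {y : F}, W.Equation x y → p.eval x + q.eval x * y = 0 := by
    intro y hy
    have := congr_arg (evalAt hy) h
    rw [map_pow, map_mul, evalAt_smul_basis, evalAt_algebraMap] at this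
    simp only [eval_pow, eval_sub, eval_X, eval_C, sub_self, zero_pow hn, zero_mul] at this
    exact eq_zero_of_pow_eq_zero this
  obtain ⟨y, hy⟩ := exists_point_equation W x
  have h1 := hz hy
  have h2 := hz ((equation_neg x y).mpr hy)
  suffices hq : q.eval x = 0 by
    refine ⟨dvd_iff_isRoot.mpr ?_, dvd_iff_isRoot.mpr hq⟩
    rw [IsRoot, ← h1, hq, zero_mul, add_zero]
  by_contra hq
  have hyy : y = W.negY x y :=
    mul_left_cancel₀ hq (add_left_cancel (h1.trans h2.symm))
  -- the norm has a double root at `x`
  have hN : (X - C x) ^ 2 ∣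
      Algebra.norm F[X] (p • (1 : W.CoordinateRing) + q • CoordinateRing.mk W Y) := by
    refine (IsIntegrallyClosed.pow_dvd_pow_iff hn).mp ⟨Algebra.norm F[X] g, ?_⟩
    rw [← map_pow, h, map_mul, norm_algebraMap_coordinateRing, ← pow_mul, ← pow_mul, mul_comm n 2]
  rw [CoordinateRing.norm_smul_basis] at hN
  obtain ⟨m, hm⟩ := hN
  have hd := congr_arg (fun r : F[X] => r.derivative.eval x) hm
  have hns : W.Nonsingular x y := (equation_iff_nonsingular_of_Δ_ne_zero hΔ).mp hy
  have hp : p.eval x = -(q.eval x * y) := eq_neg_of_add_eq_zero_left h1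
  rw [negY] at hyy
  have hl : 2 * y + W.a₁ * x + W.a₃ = 0 := by linear_combination hyy
  have hc := (equation_iff x y).mp hy
  simp only [derivative_mul, derivative_sub, derivative_add, derivative_pow, derivative_X,
    derivative_C, eval_mul, eval_sub, eval_add, eval_pow, eval_X, eval_C, sub_self,
    Nat.cast_ofNat, mul_zero, zero_mul, add_zero, zero_add, ne_eq, OfNat.ofNat_ne_zero,
    not_false_eq_true, zero_pow, mul_one, sub_zero, Nat.add_one_sub_one, pow_one] at hd
  rw [hp] at hd
  have hX : q.eval x ^ 2 * (W.a₁ * y - (3 * x ^ 2 + 2 * W.a₂ * x + W.a₄)) = 0 := by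
    linear_combination (norm := ring1) hd +
      ((derivative p).eval x * q.eval x + (derivative q).eval x * q.eval x * y) * hl -
        2 * (derivative q).eval x * q.eval x * hc
  rcases ((nonsingular_iff' x y).mp hns).2 with hne | hne
  · exact hne ((mul_eq_zero.mp hX).resolve_left (pow_ne_zero 2 hq))
  · exact hne hl

lemma exists_eq_mul_of_pow (hΔ : W.Δ ≠ 0) {n : ℕ} (hn : n ≠ 0) (d : F[X]) (hd : d ≠ 0) :
    ∀ (k g : W.CoordinateRing), k ^ n = algebraMap F[X] W.CoordinateRing (d ^ n) * g →
      ∃ h, k = algebraMap F[X] W.CoordinateRing d * h := by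
  induction hdeg : d.natDegree using Nat.strong_induction_on generalizing d with
  | _ m ih =>
    intro k g h
    rcases Nat.eq_zero_or_pos m with rfl | hm
    · obtain ⟨c, rfl⟩ := natDegree_eq_zero.mp hdeg
      have hc : c ≠ 0 := fun e => hd (by rw [e, C_0])
      refine ⟨algebraMap F[X] W.CoordinateRing (C c⁻¹) * k, ?_⟩
      rw [← mul_assoc, ← map_mul, ← C_mul, mul_inv_cancel₀ hc, C_1, map_one, one_mul]
    · obtain ⟨x, hx⟩ := IsAlgClosed.exists_root d
        (by rw [degree_eq_natDegree hd, hdeg]; exact_mod_cast hm.ne')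
      obtain ⟨d', hd'⟩ := dvd_iff_isRoot.mpr hx
      have hd'0 : d' ≠ 0 := fun e => hd (by rw [hd', e, mul_zero])
      have hdeg' : d'.natDegree < m := by
        rw [← hdeg, hd', natDegree_mul (X_sub_C_ne_zero x) hd'0, natDegree_X_sub_C]
        omega
      obtain ⟨p, q, rfl⟩ := CoordinateRing.exists_smul_basis_eq k
      rw [hd', mul_pow, map_mul, mul_assoc] at h
      obtain ⟨⟨p', hp⟩, ⟨q', hq⟩⟩ := dvd_and_dvd_of_pow hΔ hn x p q _ h
      have hk : p • (1 : W.CoordinateRing) + q • CoordinateRing.mk W Y =
          algebraMap F[X] W.CoordinateRing (X - C x) *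
            (p' • (1 : W.CoordinateRing) + q' • CoordinateRing.mk W Y) := by
        simp only [Algebra.smul_def, hp, hq, map_mul]
        ring
      rw [hk, mul_pow, ← map_pow] at h
      have he : algebraMap F[X] W.CoordinateRing ((X - C x) ^ n) ≠ 0 :=
        (map_ne_zero_iff _ (FaithfulSMul.algebraMap_injective _ _)).mpr
          (pow_ne_zero _ (X_sub_C_ne_zero x))
      obtain ⟨h', hh'⟩ := ih _ hdeg' d' hd'0 rfl _ g (mul_left_cancel₀ he h)
      exact ⟨h', by rw [hk, hh', hd', map_mul, mul_assoc]⟩

/-- If the `n`-th power of an element of the function field lies in the coordinate ring, then so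
does the element. -/
lemma exists_eq_algebraMap_of_pow (hΔ : W.Δ ≠ 0) {n : ℕ} (hn : n ≠ 0) (h : W.FunctionField)
    (g : W.CoordinateRing) (hg : h ^ n = algebraMap W.CoordinateRing W.FunctionField g) :
    ∃ a : W.CoordinateRing, algebraMap W.CoordinateRing W.FunctionField a = h := by
  obtain ⟨u, v, hv, rfl⟩ := IsFractionRing.div_surjective W.CoordinateRing h
  have hv0 : v ≠ 0 := nonZeroDivisors.ne_zero hv
  obtain ⟨p, q, rfl⟩ := CoordinateRing.exists_smul_basis_eq v
  set v := p • (1 : W.CoordinateRing) + q • CoordinateRing.mk W Y with hvdef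
  set v' := CoordinateRing.mk W (C p + C q * (-(Y : F[X][Y]) - C (C W.a₁ * X + C W.a₃)))
  set d := Algebra.norm F[X] v with hddef
  have hvv : algebraMap F[X] W.CoordinateRing d = v * v' := by
    refine (CoordinateRing.coe_norm_smul_basis p q).trans ?_
    rw [map_mul]
    congr 1
    simp only [hvdef, CoordinateRing.smul, map_add, map_mul, mul_one]
  have hd : d ≠ 0 := by
    rw [hddef]
    exact (Algebra.norm_ne_zero_iff_of_basis (CoordinateRing.basis W)).mpr hv0
  have hvK := (map_ne_zero_iff _ (IsFractionRing.injective W.CoordinateRing W.FunctionField)).mpr hv0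
  rw [div_pow, div_eq_iff (pow_ne_zero _ hvK), ← map_pow, ← map_pow, ← map_mul] at hg
  have hg' := IsFractionRing.injective W.CoordinateRing W.FunctionField hg
  obtain ⟨a, ha⟩ := exists_eq_mul_of_pow hΔ hn d hd (u * v') g (by
    rw [map_pow, hvv, mul_pow, mul_pow, hg']
    ring)
  refine ⟨a, ?_⟩
  have hv' : v' ≠ 0 := fun e => by
    rw [e, mul_zero, map_eq_zero_iff _ (FaithfulSMul.algebraMap_injective _ _)] at hvv
    exact hd hvv
  rw [eq_div_iff hvK, ← map_mul]
  congr 1
  refine mul_right_cancel₀ hv' ?_
  rw [ha, hvv]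
  ring

variable [DecidableEq F]

lemma natDegree_norm_XClass (x : F) :
    (Algebra.norm F[X] (CoordinateRing.XClass W x)).natDegree = 2 := by
  have h : CoordinateRing.XClass W x = algebraMap F[X] W.CoordinateRing (X - C x) := rfl
  rw [h, norm_algebraMap_coordinateRing, natDegree_pow, natDegree_X_sub_C]

lemma natDegree_norm_YClass_line (x y l : F) :
    (Algebra.norm F[X] (CoordinateRing.YClass W (linePolynomial x y l))).natDegree = 3 := by
  have h : CoordinateRing.YClass W (linePolynomial x y l) =
      (-linePolynomial x y l) • (1 : W.CoordinateRing) + (1 : F[X]) • CoordinateRing.mk W Y := by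
    rw [CoordinateRing.YClass, map_sub, one_smul, CoordinateRing.smul, map_neg, mul_one, map_neg]
    ring
  refine natDegree_eq_of_degree_eq_some ?_
  rw [h, CoordinateRing.degree_norm_smul_basis, degree_neg, degree_one, nsmul_zero, zero_add,
    max_eq_right]
  · rfl
  have : (linePolynomial x y l).degree ≤ 1 := by
    have hlin : linePolynomial x y l = C l * X + C (y - l * x) := by
      simp only [linePolynomial, map_sub, map_mul]; ring
    rw [hlin]
    exact degree_linear_le
  calc 2 • (linePolynomial x y l).degree ≤ 2 • (1 : WithBot ℕ) := nsmul_le_nsmul_right this 2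
    _ ≤ 3 := by decide

lemma natDegree_norm_lineNum (A B : W.Point) :
    (Algebra.norm F[X] (lineNum A B)).natDegree + ptWt (A + B) =
      (Algebra.norm F[X] (lineDen A B)).natDegree + ptWt A + ptWt B := by
  unfold lineNum lineDen ptWt
  by_cases h : A = 0 ∨ B = 0
  · rw [if_pos h, if_pos h]
    rcases h with rfl | rfl <;> simp
  rw [if_neg h, if_neg h]
  push Not at h
  by_cases hAB : A + B = 0
  · rw [if_pos hAB, if_pos hAB]
    simp [h.1, h.2, hAB, natDegree_norm_XClass]
  · rw [if_neg hAB, if_neg hAB]
    simp [h.1, h.2, hAB, natDegree_norm_XClass, natDegree_norm_YClass_line]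

/-- Numerator of the Miller function. -/
noncomputable def millerNum (k : ℕ) (P : W.Point) : W.CoordinateRing :=
  ∏ j ∈ Finset.range k, lineNum (j • P) P

/-- Denominator of the Miller function. -/
noncomputable def millerDen (k : ℕ) (P : W.Point) : W.CoordinateRing :=
  ∏ j ∈ Finset.range k, lineDen (j • P) P

lemma millerNum_ne_zero (k : ℕ) (P : W.Point) : millerNum k P ≠ 0 :=
  Finset.prod_ne_zero_iff.mpr fun j _ => by
    obtain ⟨m, n, hm, -, -⟩ := exists_weightMonic (j • P) P
    exact hm.ne_zero

lemma millerDen_ne_zero (k : ℕ) (P : W.Point) : millerDen k P ≠ 0 :=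
  Finset.prod_ne_zero_iff.mpr fun j _ => by
    obtain ⟨m, n, -, hn, -⟩ := exists_weightMonic (j • P) P
    exact hn.ne_zero

lemma span_millerNum (k : ℕ) (P : W.Point) :
    Ideal.span {millerNum k P} * ptIdeal (k • P) =
      Ideal.span {millerDen k P} * ptIdeal P ^ k := by
  induction k with
  | zero => simp [millerNum, millerDen]
  | succ k ih =>
    simp only [millerNum, millerDen, Finset.prod_range_succ] at ih ⊢
    rw [← Ideal.span_singleton_mul_span_singleton, ← Ideal.span_singleton_mul_span_singleton,
      succ_nsmul, mul_assoc, span_lineNum_mul, pow_succ]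
    calc _ = Ideal.span {lineDen (k • P) P} *
          (Ideal.span {∏ j ∈ Finset.range k, lineNum (j • P) P} * ptIdeal (k • P)) *
            ptIdeal P := by ring
      _ = _ := by rw [ih]; ring

lemma natDegree_norm_millerNum (k : ℕ) (P : W.Point) :
    (Algebra.norm F[X] (millerNum k P)).natDegree + ptWt (k • P) =
      (Algebra.norm F[X] (millerDen k P)).natDegree + k * ptWt P := by
  induction k with
  | zero => simp [millerNum, millerDen, ptWt]
  | succ k ih =>
    have h := natDegree_norm_lineNum (k • P) P
    have h₁ : millerNum (k + 1) P = millerNum k P * lineNum (k • P) P :=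
      Finset.prod_range_succ _ k
    have h₂ : millerDen (k + 1) P = millerDen k P * lineDen (k • P) P :=
      Finset.prod_range_succ _ k
    obtain ⟨m, n, hm, hn, -⟩ := exists_weightMonic (k • P) P
    rw [h₁, h₂, map_mul, map_mul,
      natDegree_mul ((Algebra.norm_ne_zero_iff_of_basis (CoordinateRing.basis W)).mpr (millerNum_ne_zero k P))
        ((Algebra.norm_ne_zero_iff_of_basis (CoordinateRing.basis W)).mpr hm.ne_zero),
      natDegree_mul ((Algebra.norm_ne_zero_iff_of_basis (CoordinateRing.basis W)).mpr (millerDen_ne_zero k P))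
        ((Algebra.norm_ne_zero_iff_of_basis (CoordinateRing.basis W)).mpr hn.ne_zero), succ_nsmul, Nat.succ_mul]
    omega

/-- The Miller function of a nonzero `n`-torsion point is not an `n`-th power in the function
field, even up to a constant. -/
theorem millerFunction_not_pow (hΔ : W.Δ ≠ 0) {n : ℕ} (hn : n ≠ 0) {P : W.Point} (hP : P ≠ 0)
    (hnP : n • P = 0) (c : F) (hc : c ≠ 0) (h : W.FunctionField) :
    h ^ n ≠ algebraMap W.CoordinateRing W.FunctionField (algebraMap F W.CoordinateRing c) *
      algebraMap W.CoordinateRing W.FunctionField (millerNum n P) /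
        algebraMap W.CoordinateRing W.FunctionField (millerDen n P) := by
  intro heq
  have hs := span_millerNum n P
  rw [hnP, ptIdeal_zero, mul_one] at hs
  obtain ⟨f₀, hf₀⟩ : millerDen n P ∣ millerNum n P :=
    Ideal.mem_span_singleton.mp
      (Ideal.mul_le_left (J := ptIdeal P ^ n) (hs ▸ Ideal.mem_span_singleton_self _))
  have hden := millerDen_ne_zero n P
  have hdenK := (map_ne_zero_iff _
    (IsFractionRing.injective W.CoordinateRing W.FunctionField)).mpr hden
  have heq' : h ^ n = algebraMap W.CoordinateRing W.FunctionField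
      (algebraMap F W.CoordinateRing c * f₀) := by
    rw [heq, hf₀, map_mul, map_mul, mul_div_assoc, mul_div_cancel_left₀ _ hdenK]
  obtain ⟨a, rfl⟩ := exists_eq_algebraMap_of_pow hΔ hn h _ heq'
  rw [← map_pow] at heq'
  have ha := IsFractionRing.injective W.CoordinateRing W.FunctionField heq'
  have hd := natDegree_norm_millerNum n P
  rw [hnP, hf₀, map_mul] at hd
  simp only [ptWt, if_true, if_neg hP, add_zero, mul_one] at hd
  have hf0 : f₀ ≠ 0 := fun e => millerNum_ne_zero n P (by rw [hf₀, e, mul_zero])
  rw [natDegree_mul ((Algebra.norm_ne_zero_iff_of_basis (CoordinateRing.basis W)).mpr hden)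
    ((Algebra.norm_ne_zero_iff_of_basis (CoordinateRing.basis W)).mpr hf0)] at hd
  have hc' : (Algebra.norm F[X] (algebraMap F W.CoordinateRing c)).natDegree = 0 := by
    have h1 : algebraMap F W.CoordinateRing c = algebraMap F[X] W.CoordinateRing (C c) := rfl
    rw [h1, norm_algebraMap_coordinateRing, ← C_pow, natDegree_C]
  have hne : algebraMap F W.CoordinateRing c ≠ 0 :=
    fun e => hc ((map_eq_zero_iff _ (FaithfulSMul.algebraMap_injective _ _)).mp e)
  have := congr_arg (fun t => (Algebra.norm F[X] t).natDegree) ha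
  simp only [map_pow, map_mul, natDegree_pow] at this
  rw [natDegree_mul ((Algebra.norm_ne_zero_iff_of_basis (CoordinateRing.basis W)).mpr hne) ((Algebra.norm_ne_zero_iff_of_basis (CoordinateRing.basis W)).mpr hf0),
    hc', zero_add] at this
  refine CoordinateRing.natDegree_norm_ne_one a ?_
  refine Nat.eq_of_mul_eq_mul_left (Nat.pos_of_ne_zero hn) ?_
  omega

end Fermat.Agent.WeilPairing
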