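import Fermat.Agent.WeilPairing.Map
import Fermat.Agent.WeilPairing.RootFree
import Fermat.Agent.ECTorsion.Count

/-!
# The generic point

The point `(X, Y)` over the function field: it is not torsion, and no nonzero multiple of it is
constant.
-/

namespace Fermat.Agent.WeilPairing

open Polynomial WeierstrassCurve WeierstrassCurve.Affine
open scoped Polynomial.Bivariate

set_option linter.unusedSectionVars false

variable {F : Type*} [Field F] (W : WeierstrassCurve.Affine F)

noncomputable scoped instance instDecidableEqFunctionField : DecidableEq W.FunctionField :=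
  Classical.decEq _

/-- The constants inside the function field. -/
noncomputable def constHom : F →+* W.FunctionField :=
  (algebraMap W.CoordinateRing W.FunctionField).comp (algebraMap F W.CoordinateRing)

/-- The curve over its own function field. -/
noncomputable abbrev genCurve : WeierstrassCurve.Affine W.FunctionField := W.map (constHom W)

/-- The function `X`. -/
noncomputable def genX : W.FunctionField :=
  algebraMap W.CoordinateRing W.FunctionField (CoordinateRing.mk W (C X))

/-- The function `Y`. -/
noncomputable def genY : W.FunctionField :=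
  algebraMap W.CoordinateRing W.FunctionField (CoordinateRing.mk W Y)

variable {W}

/-- A ring homomorphism out of the coordinate ring is evaluation at the images of `X` and `Y`. -/
lemma hom_mk_eq_evalEval {L : Type*} [CommRing L] (ψ : W.CoordinateRing →+* L) (p : F[X][Y]) :
    ψ (CoordinateRing.mk W p) =
      (p.map (mapRingHom (ψ.comp (algebraMap F W.CoordinateRing)))).evalEval
        (ψ (CoordinateRing.mk W (C X))) (ψ (CoordinateRing.mk W Y)) := by
  have h : ψ.comp (CoordinateRing.mk W) =
      ((evalEvalRingHom (ψ (CoordinateRing.mk W (C X))) (ψ (CoordinateRing.mk W Y))).comp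
        (mapRingHom (mapRingHom (ψ.comp (algebraMap F W.CoordinateRing))))) := by
    refine Polynomial.ringHom_ext' (Polynomial.ringHom_ext (fun a => ?_) ?_) ?_
    · simp [IsScalarTower.algebraMap_apply F F[X] W.CoordinateRing,
        AdjoinRoot.algebraMap_eq]
    · simp
    · simp
  exact congr_arg (fun g : F[X][Y] →+* L => g p) h

lemma genCurve_equation : (genCurve W).Equation (genX W) (genY W) := by
  rw [genCurve, Equation, map_polynomial]
  have h := hom_mk_eq_evalEval (algebraMap W.CoordinateRing W.FunctionField) W.polynomial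
  rw [AdjoinRoot.mk_self, map_zero] at h
  exact h.symm

lemma genCurve_delta_ne_zero (hΔ : W.Δ ≠ 0) : (genCurve W).Δ ≠ 0 := by
  rw [genCurve, map_Δ]
  exact (map_ne_zero_iff _ (constHom W).injective).mpr hΔ

lemma genX_notMem_range : genX W ∉ Set.range (constHom W) := by
  rintro ⟨c, hc⟩
  refine CoordinateRing.XClass_ne_zero (W' := W) c ?_
  rw [CoordinateRing.XClass, C_sub, map_sub, sub_eq_zero]
  exact (IsFractionRing.injective W.CoordinateRing W.FunctionField hc).symm

variable [DecidableEq F]

/-- The generic point. -/
noncomputable def genPoint (hΔ : W.Δ ≠ 0) : (genCurve W).Point :=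
  Point.some (genX W) (genY W)
    ((equation_iff_nonsingular_of_Δ_ne_zero (genCurve_delta_ne_zero hΔ)).mp genCurve_equation)

variable {L : Type*} [Field L] [DecidableEq L] {f : F →+* L} {W₂ : WeierstrassCurve.Affine L}

/-- A non-constant point is a specialisation of the generic one. -/
theorem exists_hom_genPoint [IsAlgClosed F] (hΔ : W.Δ ≠ 0) (h : W.map f = W₂) {Z : W₂.Point}
    (hZ : Z ∉ Set.range (pointMapTo f h)) :
    ∃ (φ : W.FunctionField →+* L) (hφ : (genCurve W).map φ = W₂),
      φ.comp (constHom W) = f ∧ pointMapTo φ hφ (genPoint hΔ) = Z := by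
  have hx : ptX Z ∉ Set.range f := fun hx => hZ (mem_range_pointMapTo f h hx)
  cases Z with
  | zero => exact absurd ⟨0, map_zero _⟩ hZ
  | some x y hxy =>
    subst h
    rw [ptX_some] at hx
    have heq : eval₂ (eval₂RingHom f x) y W.polynomial = 0 := by
      have := hxy.1
      rw [Equation, map_polynomial] at this
      rw [eval₂_eval₂RingHom_apply]
      exact this
    set ψ : W.CoordinateRing →+* L := AdjoinRoot.lift (eval₂RingHom f x) y heq with hψ
    have hψX : ψ (CoordinateRing.mk W (C X)) = x := by simp [hψ]
    have hψY : ψ (CoordinateRing.mk W Y) = y := by simp [hψ]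
    have hψp : ∀ p : F[X], ψ (algebraMap F[X] W.CoordinateRing p) = p.eval₂ f x := fun p => by
      simp [hψ, AdjoinRoot.algebraMap_eq]
    have hinj : Function.Injective ψ := by
      refine (injective_iff_map_eq_zero ψ).mpr fun a ha => ?_
      by_contra ha0
      obtain ⟨p, q, rfl⟩ := CoordinateRing.exists_smul_basis_eq a
      have hN := (CoordinateRing.coe_norm_smul_basis (W' := W) p q)
      have hN0 := (Algebra.norm_ne_zero_iff_of_basis (CoordinateRing.basis W)).mpr ha0
      set N := Algebra.norm F[X] (p • (1 : W.CoordinateRing) + q • CoordinateRing.mk W Y)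
      have h0 : ψ (algebraMap F[X] W.CoordinateRing N) = 0 := by
        refine (congr_arg ψ hN).trans ?_
        rw [map_mul, map_mul, show CoordinateRing.mk W (C p + C q * Y) =
          p • (1 : W.CoordinateRing) + q • CoordinateRing.mk W Y by
            simp only [CoordinateRing.smul, map_add, map_mul, mul_one], ha, zero_mul]
      rw [hψp, eval₂_eq_eval_map] at h0
      have hroot : x ∈ (N.map f).roots :=
        (mem_roots ((Polynomial.map_ne_zero_iff f.injective).mpr hN0)).mpr h0
      rw [(IsAlgClosed.splits N).roots_map f] at hroot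
      obtain ⟨c, -, hc⟩ := Multiset.mem_map.mp hroot
      exact hx ⟨c, hc⟩
    set φ : W.FunctionField →+* L := IsFractionRing.lift hinj with hφ
    have hφa : ∀ a, φ (algebraMap W.CoordinateRing W.FunctionField a) = ψ a := fun a =>
      IsFractionRing.lift_algebraMap hinj a
    have hcomp : φ.comp (constHom W) = f := by
      ext c
      rw [RingHom.comp_apply, constHom, RingHom.comp_apply, hφa,
        IsScalarTower.algebraMap_apply F F[X] W.CoordinateRing, hψp]
      simp
    refine ⟨φ, ?_, hcomp, ?_⟩
    · change (W.map (constHom W)).map φ = W.map f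
      rw [← hcomp]
      rfl
    · rw [genPoint, pointMapTo_some, Point.some.injEq]
      exact ⟨(hφa _).trans hψX, (hφa _).trans hψY⟩

lemma pointMapTo_comp {K : Type*} [Field K] [DecidableEq K] {W₁ : WeierstrassCurve.Affine K}
    {g : F →+* K} (hg : W.map g = W₁) {φ : K →+* L} (hφ : W₁.map φ = W₂) (hf : φ.comp g = f)
    (h : W.map f = W₂) (P : W.Point) :
    pointMapTo φ hφ (pointMapTo g hg P) = pointMapTo f h P := by
  subst hf
  cases P <;> rfl

/-- No nonzero multiple of the generic point is constant. -/
theorem nsmul_genPoint_notMem_range [IsAlgClosed F] (hΔ : W.Δ ≠ 0) {m : ℕ} (hm : m ≠ 0) :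
    m • genPoint hΔ ∉ Set.range (pointMapTo (constHom W) (rfl : _ = genCurve W)) := by
  rintro ⟨c, hc⟩
  set ι := pointMapTo (constHom W) (rfl : _ = genCurve W)
  obtain ⟨q, hq, hqp⟩ := Nat.exists_infinite_primes (max (m + 1) (ringChar F + 1))
  have hqF : (q : F) ≠ 0 := fun e => by
    have hd := (ringChar.spec F q).mp e
    rcases hqp.eq_one_or_self_of_dvd _ hd with h | h
    · exact CharP.ringChar_ne_one h
    · have := le_trans (le_max_right _ _) hq
      omega
  obtain ⟨T, hT⟩ := ECTorsion.exists_addOrderOf_eq hΔ hqF
  have hG : genPoint hΔ ∉ Set.range ι := by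
    rintro ⟨P, hP⟩
    refine genX_notMem_range (W := W) ⟨ptX P, ?_⟩
    rw [← ptX_pointMapTo (constHom W) (rfl : _ = genCurve W), hP]
    rfl
  have hZ : genPoint hΔ + ι T ∉ Set.range ι := by
    rintro ⟨P, hP⟩
    exact hG ⟨P - T, by rw [map_sub, hP, add_sub_cancel_right]⟩
  obtain ⟨φ, hφ, hcomp, hφG⟩ := exists_hom_genPoint hΔ (rfl : _ = genCurve W) hZ
  have h1 : pointMapTo φ hφ (m • genPoint hΔ) = ι c + ι (m • T) := by
    rw [map_nsmul, hφG, nsmul_add, ← hc, map_nsmul]
  rw [← hc] at h1
  simp only [ι, pointMapTo_comp (rfl : _ = genCurve W) hφ hcomp (rfl : _ = genCurve W)] at h1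
  have h2 : m • T = 0 := by
    rw [← pointMapTo_eq_zero_iff (constHom W) (rfl : _ = genCurve W)]
    exact add_eq_left.mp h1.symm
  have h3 := addOrderOf_dvd_iff_nsmul_eq_zero.mpr h2
  rw [hT] at h3
  have := Nat.le_of_dvd (Nat.pos_of_ne_zero hm) h3
  have := le_trans (le_max_left _ _) hq
  omega

end Fermat.Agent.WeilPairing
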