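import Fermat.Agent.WeilPairing.Weight

/-!
# The normalised function with divisor `(A) + (B) - (A+B) - (O)` and Weil reciprocity

`lineVal A B Z` is the value at `Z` of the function `L/V`, where `L` is the line through `A, B`
and `V` the vertical line through `A + B`, with the obvious conventions in the degenerate cases.
It is a normalised two-cocycle in `(A, B)`; as a function of `(A, B, -Z)` it is symmetric, and
these two facts formally imply Weil reciprocity for such functions.
-/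

namespace Fermat.Agent.WeilPairing

set_option linter.unusedSectionVars false

open Polynomial WeierstrassCurve WeierstrassCurve.Affine
open scoped Polynomial.Bivariate

variable {F : Type*} [Field F] {W : WeierstrassCurve.Affine F}

/-- The `X`-coordinate, with junk value `0` at infinity. -/
def ptX : W.Point → F
  | .zero => 0
  | .some x _ _ => x

/-- The `Y`-coordinate, with junk value `0` at infinity. -/
def ptY : W.Point → F
  | .zero => 0
  | .some _ y _ => y

@[simp] lemma ptX_some {x y : F} (h : W.Nonsingular x y) : ptX (Point.some x y h) = x := rfl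

@[simp] lemma ptY_some {x y : F} (h : W.Nonsingular x y) : ptY (Point.some x y h) = y := rfl

@[simp] lemma ptX_neg (P : W.Point) : ptX (-P) = ptX P := by
  cases P <;> rfl

lemma ptY_neg {P : W.Point} (hP : P ≠ 0) : ptY (-P) = W.negY (ptX P) (ptY P) := by
  cases P with
  | zero => exact absurd rfl hP
  | some x y h => rfl

lemma equation_pt {P : W.Point} (hP : P ≠ 0) : W.Equation (ptX P) (ptY P) := by
  cases P with
  | zero => exact absurd rfl hP
  | some x y h => exact h.1

lemma ptX_eq_iff {P Q : W.Point} (hP : P ≠ 0) (hQ : Q ≠ 0) :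
    ptX P = ptX Q ↔ P = Q ∨ P = -Q := by
  cases P with
  | zero => exact absurd rfl hP
  | some x y h =>
    cases Q with
    | zero => exact absurd rfl hQ
    | some x' y' h' => exact Point.X_eq_iff

/-- Evaluation at a point of the curve. -/
noncomputable def evalAt {x y : F} (h : W.Equation x y) : W.CoordinateRing →+* F :=
  AdjoinRoot.lift (evalRingHom x) y (by rw [eval₂_evalRingHom]; exact h)

lemma evalAt_mk {x y : F} (h : W.Equation x y) (p : F[X][Y]) :
    evalAt h (CoordinateRing.mk W p) = p.evalEval x y := by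
  rw [evalAt, AdjoinRoot.lift_mk, eval₂_evalRingHom]

lemma evalAt_XClass {x y : F} (h : W.Equation x y) (a : F) :
    evalAt h (CoordinateRing.XClass W a) = x - a := by
  rw [CoordinateRing.XClass, evalAt_mk]
  simp [evalEval]

lemma evalAt_YClass {x y : F} (h : W.Equation x y) (a b l : F) :
    evalAt h (CoordinateRing.YClass W (linePolynomial a b l)) = y - (l * (x - a) + b) := by
  rw [CoordinateRing.YClass, evalAt_mk]
  simp [evalEval, linePolynomial]

variable [DecidableEq F]

/-- Two points whose sum and themselves are nonzero. -/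
def IsLinePair (A B : W.Point) : Prop :=
  A ≠ 0 ∧ B ≠ 0 ∧ A + B ≠ 0

lemma IsLinePair.symm {A B : W.Point} (h : IsLinePair A B) : IsLinePair B A :=
  ⟨h.2.1, h.1, by rw [add_comm]; exact h.2.2⟩

lemma IsLinePair.neg {A B : W.Point} (h : IsLinePair A B) : IsLinePair (-A) (-B) :=
  ⟨neg_ne_zero.mpr h.1, neg_ne_zero.mpr h.2.1, by rw [← neg_add]; exact neg_ne_zero.mpr h.2.2⟩

/-- The slope of the line through two points. -/
def ptSlope (A B : W.Point) : F := W.slope (ptX A) (ptX B) (ptY A) (ptY B)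

lemma IsLinePair.coords {A B : W.Point} (h : IsLinePair A B) :
    ¬(ptX A = ptX B ∧ ptY A = W.negY (ptX B) (ptY B)) ∧
      ptX (A + B) = W.addX (ptX A) (ptX B) (ptSlope A B) ∧
      ptY (A + B) = W.addY (ptX A) (ptX B) (ptY A) (ptSlope A B) := by
  obtain ⟨hA, hB, hAB⟩ := h
  cases A with
  | zero => exact absurd rfl hA
  | some x₁ y₁ h₁ =>
    cases B with
    | zero => exact absurd rfl hB
    | some x₂ y₂ h₂ =>
      by_cases hxy : x₁ = x₂ ∧ y₁ = W.negY x₂ y₂
      · exact absurd (Point.add_of_Y_eq hxy.1 hxy.2) hAB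
      · refine ⟨hxy, ?_, ?_⟩ <;> rw [Point.add_some hxy] <;> rfl

lemma IsLinePair.addPolynomial_eq' {A B : W.Point} (h : IsLinePair A B) :
    W.addPolynomial (ptX A) (ptY A) (ptSlope A B) =
      -((X - C (ptX A)) * (X - C (ptX B)) * (X - C (ptX (A + B)))) := by
  obtain ⟨hxy, hX, -⟩ := h.coords
  rw [hX]
  exact addPolynomial_slope (equation_pt h.1) (equation_pt h.2.1) hxy

/-- Numerator of the normalised function with divisor `(A) + (B) - (A+B) - (O)`. -/
noncomputable def lineNum (A B : W.Point) : W.CoordinateRing :=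
  if A = 0 ∨ B = 0 then 1
  else if A + B = 0 then CoordinateRing.XClass W (ptX A)
  else CoordinateRing.YClass W (linePolynomial (ptX A) (ptY A) (ptSlope A B))

/-- Denominator of the normalised function with divisor `(A) + (B) - (A+B) - (O)`. -/
noncomputable def lineDen (A B : W.Point) : W.CoordinateRing :=
  if A = 0 ∨ B = 0 then 1
  else if A + B = 0 then 1
  else CoordinateRing.XClass W (ptX (A + B))

/-- The prime ideal of a point, `1` for the point at infinity. -/
noncomputable def ptIdeal : W.Point → Ideal W.CoordinateRing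
  | .zero => 1
  | .some x y _ => CoordinateRing.XYIdeal W x (C y)

@[simp] lemma ptIdeal_zero : ptIdeal (0 : W.Point) = 1 := rfl

lemma ptIdeal_of_ne {P : W.Point} (hP : P ≠ 0) :
    ptIdeal P = CoordinateRing.XYIdeal W (ptX P) (C (ptY P)) := by
  cases P with
  | zero => exact absurd rfl hP
  | some x y h => rfl

lemma span_XClass_eq {P : W.Point} (hP : P ≠ 0) :
    Ideal.span {CoordinateRing.XClass W (ptX P)} = ptIdeal P * ptIdeal (-P) := by
  cases P with
  | zero => exact absurd rfl hP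
  | some x y h => exact (CoordinateRing.XYIdeal_neg_mul h).symm.trans (mul_comm _ _)

lemma span_lineNum_mul (A B : W.Point) :
    Ideal.span {lineNum A B} * ptIdeal (A + B) =
      Ideal.span {lineDen A B} * (ptIdeal A * ptIdeal B) := by
  unfold lineNum lineDen
  by_cases h : A = 0 ∨ B = 0
  · rw [if_pos h, if_pos h]
    rcases h with rfl | rfl <;> simp
  rw [if_neg h, if_neg h]
  push Not at h
  by_cases hAB : A + B = 0
  · rw [if_pos hAB, if_pos hAB, hAB, span_XClass_eq h.1]
    rw [eq_neg_of_add_eq_zero_right hAB]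
    simp
  · rw [if_neg hAB, if_neg hAB]
    have hp : IsLinePair A B := ⟨h.1, h.2, hAB⟩
    obtain ⟨hxy, hX, hY⟩ := hp.coords
    rw [ptIdeal_of_ne hAB, ptIdeal_of_ne h.1, ptIdeal_of_ne h.2, hX, hY]
    exact (CoordinateRing.XYIdeal_mul_XYIdeal (equation_pt h.1) (equation_pt h.2) hxy).symm

lemma ptIdeal_mul_left_cancel {R : W.Point} {I J : Ideal W.CoordinateRing}
    (h : ptIdeal R * I = ptIdeal R * J) : I = J := by
  by_cases hR : R = 0
  · subst hR
    simpa using h
  · have h' : Ideal.span {CoordinateRing.XClass W (ptX R)} * I =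
        Ideal.span {CoordinateRing.XClass W (ptX R)} * J := by
      rw [span_XClass_eq hR, mul_comm (ptIdeal R) (ptIdeal (-R)), mul_assoc, mul_assoc, h]
    exact (Ideal.span_singleton_mul_right_inj (CoordinateRing.XClass_ne_zero _)).mp h'

/-- The weight of a point: `1` unless it is at infinity. -/
def ptWt (P : W.Point) : ℕ := if P = 0 then 0 else 1

lemma exists_weightMonic (A B : W.Point) :
    ∃ m n : ℕ, WeightMonic W (lineNum A B) m ∧ WeightMonic W (lineDen A B) n ∧
      m + ptWt (A + B) = n + ptWt A + ptWt B := by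
  unfold lineNum lineDen ptWt
  by_cases h : A = 0 ∨ B = 0
  · rw [if_pos h, if_pos h]
    refine ⟨0, 0, weightMonic_one, weightMonic_one, ?_⟩
    rcases h with rfl | rfl <;> simp
  rw [if_neg h, if_neg h]
  push Not at h
  by_cases hAB : A + B = 0
  · rw [if_pos hAB, if_pos hAB]
    exact ⟨2, 0, weightMonic_XClass _, weightMonic_one, by simp [h.1, h.2, hAB]⟩
  · rw [if_neg hAB, if_neg hAB]
    exact ⟨3, 2, weightMonic_YClass_line _ _ _, weightMonic_XClass _, by simp [h.1, h.2, hAB]⟩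

theorem lineNum_cocycle (A B D : W.Point) :
    lineNum A B * lineNum (A + B) D * lineDen B D * lineDen A (B + D) =
      lineNum B D * lineNum A (B + D) * lineDen A B * lineDen (A + B) D := by
  obtain ⟨m₁, n₁, hm₁, hn₁, e₁⟩ := exists_weightMonic A B
  obtain ⟨m₂, n₂, hm₂, hn₂, e₂⟩ := exists_weightMonic (A + B) D
  obtain ⟨m₃, n₃, hm₃, hn₃, e₃⟩ := exists_weightMonic B D
  obtain ⟨m₄, n₄, hm₄, hn₄, e₄⟩ := exists_weightMonic A (B + D)
  have hr₁ := span_lineNum_mul A B
  have hr₂ := span_lineNum_mul (A + B) D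
  have hr₃ := span_lineNum_mul B D
  have hr₄ := span_lineNum_mul A (B + D)
  have he : A + B + D = A + (B + D) := add_assoc A B D
  rw [← he] at hr₄ e₄
  have hw : m₁ + m₂ + n₃ + n₄ = m₃ + m₄ + n₁ + n₂ := by omega
  refine eq_of_span_eq_span ((((hm₁.mul hm₂).mul hn₃).mul hn₄))
    (hw ▸ (((hm₃.mul hm₄).mul hn₁).mul hn₂)) ?_
  refine ptIdeal_mul_left_cancel (R := A + B) (ptIdeal_mul_left_cancel (R := B + D)
    (ptIdeal_mul_left_cancel (R := A + B + D) ?_))
  simp only [← Ideal.span_singleton_mul_span_singleton]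
  calc _ = (Ideal.span {lineNum A B} * ptIdeal (A + B)) *
        (Ideal.span {lineNum (A + B) D} * ptIdeal (A + B + D)) *
        (Ideal.span {lineDen B D} * Ideal.span {lineDen A (B + D)} * ptIdeal (B + D)) := by ring
    _ = (Ideal.span {lineDen B D} * (ptIdeal B * ptIdeal D)) *
        (Ideal.span {lineDen A (B + D)} * (ptIdeal A * ptIdeal (B + D))) *
        (Ideal.span {lineDen A B} * Ideal.span {lineDen (A + B) D} * ptIdeal (A + B)) := by
      rw [hr₁, hr₂]; ring
    _ = _ := by rw [← hr₃, ← hr₄]; ring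

theorem lineNum_comm (A B : W.Point) :
    lineNum A B * lineDen B A = lineNum B A * lineDen A B := by
  obtain ⟨m₁, n₁, hm₁, hn₁, e₁⟩ := exists_weightMonic A B
  obtain ⟨m₂, n₂, hm₂, hn₂, e₂⟩ := exists_weightMonic B A
  have hr₁ := span_lineNum_mul A B
  have hr₂ := span_lineNum_mul B A
  rw [add_comm B A] at hr₂ e₂
  have hw : m₁ + n₂ = m₂ + n₁ := by omega
  refine eq_of_span_eq_span (hm₁.mul hn₂) (hw ▸ hm₂.mul hn₁) ?_
  refine ptIdeal_mul_left_cancel (R := A + B) ?_
  simp only [← Ideal.span_singleton_mul_span_singleton]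
  calc _ = (Ideal.span {lineNum A B} * ptIdeal (A + B)) * Ideal.span {lineDen B A} := by ring
    _ = (Ideal.span {lineDen B A} * (ptIdeal B * ptIdeal A)) * Ideal.span {lineDen A B} := by
      rw [hr₁]; ring
    _ = _ := by rw [← hr₂]; ring

/-- Value at `Z` of the normalised function with divisor `(A) + (B) - (A+B) - (O)`; the value at
infinity is `1`. -/
noncomputable def lineVal (A B : W.Point) : W.Point → F
  | .zero => 1
  | .some _ _ h => evalAt h.1 (lineNum A B) / evalAt h.1 (lineDen A B)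

@[simp] lemma lineVal_zero (A B : W.Point) : lineVal A B 0 = 1 := rfl

@[simp] lemma lineVal_zero_left (B Z : W.Point) : lineVal 0 B Z = 1 := by
  cases Z with
  | zero => rfl
  | some x y h => simp [lineVal, lineNum, lineDen]

@[simp] lemma lineVal_zero_right (A Z : W.Point) : lineVal A 0 Z = 1 := by
  cases Z with
  | zero => rfl
  | some x y h => simp [lineVal, lineNum, lineDen]

lemma lineVal_of_add_eq_zero {A B Z : W.Point} (hA : A ≠ 0) (hAB : A + B = 0) (hZ : Z ≠ 0) :
    lineVal A B Z = ptX Z - ptX A := by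
  have hB : B ≠ 0 := by
    rintro rfl
    exact hA (by simpa using hAB)
  cases Z with
  | zero => exact absurd rfl hZ
  | some x y h => simp [lineVal, lineNum, lineDen, hA, hB, hAB, evalAt_XClass]

lemma lineVal_of_isLinePair {A B Z : W.Point} (h : IsLinePair A B) (hZ : Z ≠ 0) :
    lineVal A B Z = (ptY Z - (ptSlope A B * (ptX Z - ptX A) + ptY A)) /
      (ptX Z - ptX (A + B)) := by
  cases Z with
  | zero => exact absurd rfl hZ
  | some x y hxy =>
    simp [lineVal, lineNum, lineDen, h.1, h.2.1, h.2.2, evalAt_XClass, evalAt_YClass]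

/-- `Z` is not `±S`, unless one of them is at infinity. -/
def IsAway (Z S : W.Point) : Prop :=
  Z = 0 ∨ S = 0 ∨ ptX Z ≠ ptX S

lemma evalAt_lineDen_ne_zero {A B : W.Point} {x y : F} {h : W.Nonsingular x y}
    (hS : IsAway (Point.some x y h) (A + B)) : evalAt h.1 (lineDen A B) ≠ 0 := by
  unfold lineDen
  split_ifs with h₁ h₂
  · simp
  · simp
  · rw [evalAt_XClass, sub_ne_zero]
    exact (hS.resolve_left (Point.some_ne_zero h)).resolve_left h₂

theorem lineVal_cocycle (A B D Z : W.Point) (h₁ : IsAway Z (A + B)) (h₂ : IsAway Z (A + B + D))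
    (h₃ : IsAway Z (B + D)) :
    lineVal A B Z * lineVal (A + B) D Z = lineVal B D Z * lineVal A (B + D) Z := by
  cases Z with
  | zero => rfl
  | some x y h =>
    have h₄ : IsAway (Point.some x y h) (A + (B + D)) := by rwa [← add_assoc]
    simp only [lineVal]
    rw [div_mul_div_comm, div_mul_div_comm,
      div_eq_div_iff (mul_ne_zero (evalAt_lineDen_ne_zero h₁) (evalAt_lineDen_ne_zero h₂))
        (mul_ne_zero (evalAt_lineDen_ne_zero h₃) (evalAt_lineDen_ne_zero h₄))]
    simp only [← map_mul]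
    congr 1
    linear_combination (norm := ring1) lineNum_cocycle A B D

theorem lineVal_comm (A B Z : W.Point) (h₁ : IsAway Z (A + B)) :
    lineVal A B Z = lineVal B A Z := by
  cases Z with
  | zero => rfl
  | some x y h =>
    simp only [lineVal]
    rw [div_eq_div_iff (evalAt_lineDen_ne_zero h₁)
      (evalAt_lineDen_ne_zero (by rwa [add_comm])), ← map_mul, ← map_mul, lineNum_comm]

lemma lineVal_mul_lineVal_neg {A B Z : W.Point} (h : IsLinePair A B) (hZ : Z ≠ 0)
    (hS : ptX Z ≠ ptX (A + B)) :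
    lineVal A B Z * lineVal A B (-Z) =
      -((ptX Z - ptX A) * (ptX Z - ptX B)) / (ptX Z - ptX (A + B)) := by
  rw [lineVal_of_isLinePair h hZ, lineVal_of_isLinePair h (neg_ne_zero.mpr hZ), ptX_neg,
    ptY_neg hZ]
  have hC := congr_arg (fun p : F[X][Y] => p.evalEval (ptX Z) (ptY Z))
    (W.C_addPolynomial (ptX A) (ptY A) (ptSlope A B))
  rw [h.addPolynomial_eq'] at hC
  have hE : W.polynomial.evalEval (ptX Z) (ptY Z) = 0 := equation_pt hZ
  simp only [evalEval_add, evalEval_mul, hE] at hC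
  simp only [evalEval, linePolynomial, negPolynomial, eval_sub, eval_neg, eval_mul, eval_C,
    eval_X, eval_add, add_zero] at hC
  have hd := sub_ne_zero.mpr hS
  rw [div_mul_div_comm, div_eq_div_iff (mul_ne_zero hd hd) hd, negY]
  linear_combination (norm := ring1) -(ptX Z - ptX (A + B)) * hC

theorem lineVal_ne_zero {A B Z : W.Point} (hA : IsAway Z A) (hB : IsAway Z B)
    (hS : IsAway Z (A + B)) : lineVal A B Z ≠ 0 := by
  by_cases hZ : Z = 0
  · simp [hZ]
  by_cases hA0 : A = 0
  · simp [hA0]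
  by_cases hB0 : B = 0
  · simp [hB0]
  have hA' := sub_ne_zero.mpr ((hA.resolve_left hZ).resolve_left hA0)
  by_cases hAB : A + B = 0
  · rwa [lineVal_of_add_eq_zero hA0 hAB hZ]
  · have hB' := sub_ne_zero.mpr ((hB.resolve_left hZ).resolve_left hB0)
    have hS' := (hS.resolve_left hZ).resolve_left hAB
    intro h0
    have := lineVal_mul_lineVal_neg ⟨hA0, hB0, hAB⟩ hZ hS'
    rw [h0, zero_mul, eq_comm, div_eq_zero_iff, neg_eq_zero, mul_eq_zero] at this
    exact this.elim (fun h => h.elim hA' hB') (sub_ne_zero.mpr hS')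

/-- Symmetry: `(A, B, C) ↦ lineVal A B (-C)` is symmetric in `B` and `C`. -/
theorem lineVal_symm {A B Z : W.Point} (hAB : IsLinePair A B) (hAZ : IsLinePair A (-Z))
    (h₁ : ptX Z ≠ ptX (A + B)) (h₂ : ptX B ≠ ptX (A + -Z)) :
    lineVal A B Z = lineVal A (-Z) (-B) := by
  have hB := hAB.2.1
  have hZ : Z ≠ 0 := fun h => hAZ.2.1 (by simp [h])
  rw [lineVal_of_isLinePair hAB hZ, lineVal_of_isLinePair hAZ (neg_ne_zero.mpr hB), ptX_neg,
    ptY_neg hB]
  obtain ⟨hxy, hX, -⟩ := hAB.coords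
  obtain ⟨hxy', hX', -⟩ := hAZ.coords
  -- the coefficient of `X` in the addition polynomial gives one relation for each line
  have key : ∀ {B' : W.Point}, IsLinePair A B' →
      (ptX A * ptX B' + (ptX A + ptX B') * ptX (A + B')) =
        2 * ptX A * ptSlope A B' ^ 2 + (W.a₁ * ptX A - 2 * ptY A - W.a₃) * ptSlope A B' +
          (-W.a₁ * ptY A + W.a₄) := by
    intro B' h'
    have he := h'.addPolynomial_eq'
    rw [W.addPolynomial_eq, neg_inj, Cubic.prod_X_sub_C_eq, Cubic.toPoly_injective] at he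
    have := congr_arg Cubic.c he
    simp only at this
    linear_combination (norm := ring1) -this
  have online : ∀ {B' : W.Point}, IsLinePair A B' →
      ptY B' = ptSlope A B' * (ptX B' - ptX A) + ptY A := by
    intro B' h'
    obtain ⟨hxy, -, -⟩ := h'.coords
    by_cases hx : ptX A = ptX B'
    · have hy := Y_eq_of_Y_ne (equation_pt h'.1) (equation_pt h'.2.1) hx fun h => hxy ⟨hx, h⟩
      rw [← hx, ← hy]
      ring
    · rw [ptSlope, slope_of_X_ne hx]
      field_simp [sub_ne_zero.mpr hx]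
      ring
  have eB := key hAB
  have eZ := key hAZ
  have yB := online hAB
  have yZ : ptY Z = W.negY (ptX Z) (ptSlope A (-Z) * (ptX Z - ptX A) + ptY A) := by
    have := online hAZ
    rw [ptX_neg] at this
    rw [← this, ptY_neg hZ, negY_negY]
  rw [ptX_neg] at eZ hX'
  rw [div_eq_div_iff (sub_ne_zero.mpr h₁) (sub_ne_zero.mpr h₂), yB, yZ]
  simp only [hX, hX', addX, negY] at eB eZ ⊢
  linear_combination (norm := ring1)
    (ptSlope A B + ptSlope A (-Z) + W.a₁) * eZ - (ptSlope A B + ptSlope A (-Z) + W.a₁) * eB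

lemma ptSlope_neg {A B : W.Point} (h : IsLinePair A B) :
    ptSlope (-A) (-B) = -ptSlope A B - W.a₁ := by
  obtain ⟨hxy, -, -⟩ := h.coords
  rw [ptSlope, ptSlope, ptX_neg, ptX_neg, ptY_neg h.1, ptY_neg h.2.1]
  by_cases hx : ptX A = ptX B
  · have hy : ptY A ≠ W.negY (ptX B) (ptY B) := fun h => hxy ⟨hx, h⟩
    have hy' := Y_eq_of_Y_ne (equation_pt h.1) (equation_pt h.2.1) hx hy
    have hne : W.negY (ptX A) (ptY A) ≠ W.negY (ptX B) (W.negY (ptX B) (ptY B)) := by
      rw [negY_negY, ← hy', hx]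
      exact fun e => hy (by rw [← hy']; exact e.symm)
    have hd : ptY A - W.negY (ptX A) (ptY A) ≠ 0 := by
      rw [sub_ne_zero, hx]
      rwa [← hy'] at hy
    rw [slope_of_Y_ne hx hy, slope_of_Y_ne hx hne, negY_negY,
      ← neg_sub (ptY A) (W.negY (ptX A) (ptY A)), div_neg, ← sub_eq_zero]
    field_simp
    simp only [negY]
    ring
  · rw [slope_of_X_ne hx, slope_of_X_ne hx]
    field_simp [sub_ne_zero.mpr hx]
    simp only [negY]
    ring

/-- Oddness. -/
theorem lineVal_neg {A B Z : W.Point} (h : IsLinePair A B) (hZ : Z ≠ 0) :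
    lineVal (-A) (-B) (-Z) = -lineVal A B Z := by
  rw [lineVal_of_isLinePair h hZ, lineVal_of_isLinePair h.neg (neg_ne_zero.mpr hZ), ← neg_add,
    ptX_neg, ptX_neg, ptX_neg, ptY_neg hZ, ptY_neg h.1, ptSlope_neg h, ← neg_div]
  congr 1
  simp only [negY]
  ring

lemma isAway_of_disjoint {G H : AddSubgroup W.Point} (hd : Disjoint G H) {S Z : W.Point}
    (hS : S ∈ G) (hZ : Z ∈ H) : IsAway Z S := by
  by_cases hS0 : S = 0
  · exact .inr (.inl hS0)
  by_cases hZ0 : Z = 0
  · exact .inl hZ0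
  refine .inr (.inr fun h => hS0 ?_)
  rcases (ptX_eq_iff hZ0 hS0).mp h with h | h
  · exact AddSubgroup.disjoint_def.mp hd hS (h ▸ hZ)
  · exact AddSubgroup.disjoint_def.mp hd hS (by simpa [h] using neg_mem hZ)

lemma lineVal_ne_zero_of_disjoint {G H : AddSubgroup W.Point} (hd : Disjoint G H)
    {A B Z : W.Point} (hA : A ∈ G) (hB : B ∈ G) (hZ : Z ∈ H) : lineVal A B Z ≠ 0 :=
  lineVal_ne_zero (isAway_of_disjoint hd hA hZ) (isAway_of_disjoint hd hB hZ)
    (isAway_of_disjoint hd (add_mem hA hB) hZ)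

lemma lineVal_cocycle_of_disjoint {G H : AddSubgroup W.Point} (hd : Disjoint G H)
    {A B D Z : W.Point} (hA : A ∈ G) (hB : B ∈ G) (hD : D ∈ G) (hZ : Z ∈ H) :
    lineVal A B Z * lineVal (A + B) D Z = lineVal B D Z * lineVal A (B + D) Z :=
  lineVal_cocycle A B D Z (isAway_of_disjoint hd (add_mem hA hB) hZ)
    (isAway_of_disjoint hd (add_mem (add_mem hA hB) hD) hZ)
    (isAway_of_disjoint hd (add_mem hB hD) hZ)

lemma lineVal_comm_of_disjoint {G H : AddSubgroup W.Point} (hd : Disjoint G H)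
    {A B Z : W.Point} (hA : A ∈ G) (hB : B ∈ G) (hZ : Z ∈ H) :
    lineVal A B Z = lineVal B A Z :=
  lineVal_comm A B Z (isAway_of_disjoint hd (add_mem hA hB) hZ)

open scoped Classical in
/-- The sign in Weil reciprocity. -/
noncomputable def recipSign (A B D E : W.Point) : F :=
  if IsLinePair A B ∧ IsLinePair D E then -1 else 1

/-- Weil reciprocity for the functions `lineVal A B` and `lineVal D E`. -/
theorem lineVal_reciprocity {G H : AddSubgroup W.Point} (hGH : Disjoint G H) {A B D E : W.Point}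
    (hA : A ∈ G) (hB : B ∈ G) (hD : D ∈ H) (hE : E ∈ H) :
    lineVal A B D * lineVal A B E * lineVal D E (A + B) =
      recipSign A B D E * (lineVal A B (D + E) * lineVal D E A * lineVal D E B) := by
  by_cases hA0 : A = 0
  · simp [hA0, recipSign, IsLinePair]
  by_cases hB0 : B = 0
  · simp [hB0, recipSign, IsLinePair]
  by_cases hD0 : D = 0
  · simp [hD0, recipSign, IsLinePair]
  by_cases hE0 : E = 0
  · simp [hE0, recipSign, IsLinePair]
  have away : ∀ {S Z : W.Point}, S ∈ G → Z ∈ H → S ≠ 0 → Z ≠ 0 → ptX Z ≠ ptX S :=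
    fun hS hZ hS0 hZ0 => ((isAway_of_disjoint hGH hS hZ).resolve_left hZ0).resolve_left hS0
  by_cases hAB : A + B = 0
  · rw [recipSign, if_neg (fun h => h.1.2.2 hAB), one_mul, hAB, lineVal_zero, mul_one,
      lineVal_of_add_eq_zero hA0 hAB hD0, lineVal_of_add_eq_zero hA0 hAB hE0,
      eq_neg_of_add_eq_zero_right hAB]
    by_cases hDE : D + E = 0
    · rw [hDE, lineVal_zero, one_mul, lineVal_of_add_eq_zero hD0 hDE hA0,
        lineVal_of_add_eq_zero hD0 hDE (neg_ne_zero.mpr hA0), ptX_neg,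
        eq_neg_of_add_eq_zero_right hDE, ptX_neg]
      ring
    · have hF := sub_ne_zero.mpr (away hA (add_mem hD hE) hA0 hDE)
      have hF' : ptX A - ptX (D + E) ≠ 0 := fun h => hF (by linear_combination -h)
      rw [lineVal_of_add_eq_zero hA0 (add_neg_cancel A) hDE, mul_assoc,
        lineVal_mul_lineVal_neg ⟨hD0, hE0, hDE⟩ hA0 (sub_ne_zero.mp hF')]
      field_simp
      ring
  by_cases hDE : D + E = 0
  · have hS := sub_ne_zero.mpr (away (add_mem hA hB) hD hAB hD0)
    rw [recipSign, if_neg (fun h => h.2.2.2 hDE), one_mul, hDE, lineVal_zero, one_mul,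
      lineVal_of_add_eq_zero hD0 hDE hA0, lineVal_of_add_eq_zero hD0 hDE hB0,
      lineVal_of_add_eq_zero hD0 hDE hAB, eq_neg_of_add_eq_zero_right hDE,
      lineVal_mul_lineVal_neg ⟨hA0, hB0, hAB⟩ hD0 (sub_ne_zero.mp hS)]
    field_simp
    ring
  -- the main case
  have pAB : IsLinePair A B := ⟨hA0, hB0, hAB⟩
  have pDE : IsLinePair D E := ⟨hD0, hE0, hDE⟩
  rw [recipSign, if_pos ⟨pAB, pDE⟩]
  have hd := hGH
  have mixed : ∀ {S Z : W.Point}, S ∈ G → Z ∈ H → S ≠ 0 → S + -Z ≠ 0 := by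
    intro S Z hS hZ hS0 h
    rw [← sub_eq_add_neg, sub_eq_zero] at h
    exact hS0 (AddSubgroup.disjoint_def.mp hd hS (h ▸ hZ))
  -- `ptX (S + Z) ≠ ptX Z'` for `S ∈ G` nonzero
  have ne₁ : ∀ {S Z Z' : W.Point}, S ∈ G → Z ∈ H → Z' ∈ H → S ≠ 0 → Z' ≠ 0 →
      ptX Z' ≠ ptX (S + -Z) := by
    intro S Z Z' hS hZ hZ' hS0 hZ'0 h
    rcases (ptX_eq_iff hZ'0 (mixed hS hZ hS0)).mp h with h | h
    · exact hS0 (AddSubgroup.disjoint_def.mp hd hS
        ((show S = Z' + Z by rw [h]; abel) ▸ add_mem hZ' hZ))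
    · exact hS0 (AddSubgroup.disjoint_def.mp hd hS
        ((show S = -Z' + Z by rw [h]; abel) ▸ add_mem (neg_mem hZ') hZ))
  -- `ptX (S + Z) ≠ ptX S'` for `Z ∈ H` nonzero
  have ne₂ : ∀ {S S' Z : W.Point}, S ∈ G → S' ∈ G → Z ∈ H → S ≠ 0 → S' ≠ 0 → Z ≠ 0 →
      ptX S' ≠ ptX (S + -Z) := by
    intro S S' Z hS hS' hZ hS0 hS'0 hZ0 h
    rcases (ptX_eq_iff hS'0 (mixed hS hZ hS0)).mp h with h | h
    · exact hZ0 (AddSubgroup.disjoint_def.mp hd
        ((show Z = S - S' by rw [h]; abel) ▸ sub_mem hS hS') hZ)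
    · exact hZ0 (AddSubgroup.disjoint_def.mp hd
        ((show Z = S + S' by rw [h]; abel) ▸ add_mem hS hS') hZ)
  have ne₃ : ∀ {S S' Z : W.Point}, S ∈ G → S' ∈ G → Z ∈ H → Z ≠ 0 →
      S ≠ 0 → S' ≠ 0 → IsAway (-S') (S + -Z) := by
    intro S S' Z hS hS' hZ hZ0 hS0 hS'0
    exact .inr (.inr (by rw [ptX_neg]; exact ne₂ hS hS' hZ hS0 hS'0 hZ0))
  -- swap the last two slots
  have swap : ∀ {P Q Z : W.Point}, P ∈ G → Q ∈ G → Z ∈ H → IsLinePair P Q → Z ≠ 0 →
      lineVal P Q Z = lineVal P (-Z) (-Q) := by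
    intro P Q Z hP hQ hZ hPQ hZ0
    exact lineVal_symm hPQ ⟨hPQ.1, neg_ne_zero.mpr hZ0, mixed hP hZ hPQ.1⟩
      (away (add_mem hP hQ) hZ hPQ.2.2 hZ0) (ne₂ hP hQ hZ hPQ.1 hPQ.2.1 hZ0)
  have swap' : ∀ {S Z Z' : W.Point}, S ∈ G → Z ∈ H → Z' ∈ H → S ≠ 0 → IsLinePair Z Z' →
      lineVal S (-Z) Z' = lineVal (-Z) (-Z') (-S) := by
    intro S Z Z' hS hZ hZ' hS0 hZZ
    have hpS : IsLinePair (-Z) S :=
      ⟨neg_ne_zero.mpr hZZ.1, hS0, by rw [add_comm]; exact mixed hS hZ hS0⟩
    rw [lineVal_comm S (-Z) Z' (.inr (.inr (ne₁ hS hZ hZ' hS0 hZZ.2.1)))]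
    refine lineVal_symm hpS hZZ.neg ?_ ?_
    · rw [add_comm]; exact ne₁ hS hZ hZ' hS0 hZZ.2.1
    · rw [← neg_add, ptX_neg]
      exact fun h => away hS (add_mem hZ hZ') hS0 hZZ.2.2 h.symm
  set d := -D with hdd
  set e := -E with hee
  have hd' : d ∈ H := neg_mem hD
  have he' : e ∈ H := neg_mem hE
  have hde : d + e = -(D + E) := by rw [hdd, hee]; abel
  -- the five rewrites
  have hBD := lineVal_comm_of_disjoint hGH hA hB hD
  have e₁ : lineVal A B D = lineVal B d (-A) := hBD.trans (swap hB hA hD pAB.symm hD0)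
  have e₂ : lineVal A B (D + E) = lineVal B (d + e) (-A) := by
    rw [hde]
    exact (lineVal_comm_of_disjoint hGH hA hB (add_mem hD hE)).trans
      (swap hB hA (add_mem hD hE) pAB.symm hDE)
  have e₃ : lineVal (A + B) d E = lineVal d e (-(A + B)) :=
    swap' (add_mem hA hB) hD hE hAB pDE
  have e₄ : lineVal B d E = lineVal d e (-B) := swap' hB hD hE hB0 pDE
  have hBd : B + d ≠ 0 := mixed hB hD hB0
  have hawayE : ∀ {Z' : W.Point}, Z' ∈ H → ptX E ≠ ptX (A + B + -Z') :=
    fun hZ' => ne₁ (add_mem hA hB) hZ' hE hAB hE0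
  have e₅ : lineVal A (B + d) E = lineVal (B + d) e (-A) := by
    have hx : ptX E ≠ ptX (A + (B + d)) := by rw [← add_assoc]; exact hawayE hD
    rw [lineVal_comm A (B + d) E (.inr (.inr hx))]
    refine lineVal_symm ⟨hBd, hA0, ?_⟩ ⟨hBd, neg_ne_zero.mpr hE0, ?_⟩ ?_ ?_
    · rw [add_comm, ← add_assoc]; exact mixed (add_mem hA hB) hD hAB
    · rw [add_assoc, hde]; exact mixed hB (add_mem hD hE) hB0
    · rw [add_comm]; exact hx
    · rw [add_assoc, hde]
      exact ne₂ hB hA (add_mem hD hE) hB0 hA0 hDE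
  have c₁ := lineVal_cocycle B d e (-A) (ne₃ hB hA hD hD0 hB0 hA0)
    (by rw [add_assoc, hde]; exact ne₃ hB hA (add_mem hD hE) hDE hB0 hA0)
    (.inr (.inr (by
      rw [hde, ptX_neg, ptX_neg]
      exact (away hA (add_mem hD hE) hA0 hDE).symm)))
  have c₂ := lineVal_cocycle A B d E (isAway_of_disjoint hGH (add_mem hA hB) hE)
    (.inr (.inr (hawayE hD))) (.inr (.inr (ne₁ hB hD hE hB0 hE0)))
  rw [e₃, e₄, e₅] at c₂
  have hR : ∀ S, S ∈ G → S ≠ 0 → lineVal D E S = -lineVal d e (-S) := fun S _ hS0 => by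
    rw [lineVal_neg pDE hS0, neg_neg]
  rw [e₁, e₂, hR _ (add_mem hA hB) hAB, hR A hA hA0, hR B hB hB0]
  linear_combination (norm := ring1)
    -(lineVal B d (-A)) * c₂ - lineVal d e (-B) * c₁

end Fermat.Agent.WeilPairing
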