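import Fermat.Agent.WeilPairing.Generic
import Fermat.Agent.ECTorsion.MulFormula
import Mathlib.FieldTheory.AlgebraicClosure
import Mathlib.FieldTheory.IsAlgClosed.AlgebraicClosure
import Mathlib.FieldTheory.Minpoly.IsConjRoot
import Mathlib.FieldTheory.Separable

/-!
# Nondegeneracy

If `pairG n P` is invariant under translation of the generic point by `E[n]`, then by Galois
theory it descends along multiplication by `n` to an `n`-th root of the Miller function of `P`.
-/

namespace Fermat.Agent.WeilPairing

open Polynomial WeierstrassCurve WeierstrassCurve.Affine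
open scoped Polynomial.Bivariate

set_option linter.unusedSectionVars false

section Pow

variable {F : Type*} [Field F] [DecidableEq F] {W : WeierstrassCurve.Affine F}

/-- `pairG n P R` is an `n`-th root of `f_P (n • R)`. -/
theorem pairG_pow {n : ℕ} {G H : AddSubgroup W.Point} (hd : Disjoint G H) {P R : W.Point}
    (hnP : n • P = 0) (hP : P ∈ G) (hR : R ∈ H) :
    pairG n P R ^ n = millerPhi n P (n • R) := by
  have key : ∀ k : ℕ, millerPhi n P R ^ k =
      millerPhi n P (k • R) * millerVal k R P ^ n := by
    intro k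
    induction k with
    | zero => simp [millerPhi_zero, millerVal]
    | succ k ih =>
      rw [pow_succ, ih, millerVal_succ, succ_nsmul, mul_pow, mul_right_comm,
        millerPhi_mul hd hnP hP (nsmul_mem hR k) hR]
      ring
  rw [pairG, div_pow, key n, mul_div_assoc, div_self, mul_one]
  exact pow_ne_zero _ (millerVal_ne_zero hd.symm n hR hP)

end Pow

variable {F : Type*} [Field F] [DecidableEq F] (W : WeierstrassCurve.Affine F)

/-- An algebraic closure of the function field. -/
abbrev BigField : Type _ := AlgebraicClosure W.FunctionField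

/-- The constants in `BigField W`. -/
noncomputable def bigConst : F →+* BigField W :=
  (algebraMap W.FunctionField (BigField W)).comp (constHom W)

/-- The curve over `BigField W`. -/
noncomputable abbrev bigCurve : WeierstrassCurve.Affine (BigField W) := W.map (bigConst W)

noncomputable scoped instance instDecidableEqBigField : DecidableEq (BigField W) := Classical.decEq _

/-- Constant points. -/
noncomputable def bigIncl : W.Point →+ (bigCurve W).Point :=
  pointMapTo (bigConst W) (rfl : _ = bigCurve W)

lemma genCurve_map_algebraMap :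
    (genCurve W).map (algebraMap W.FunctionField (BigField W)) = bigCurve W := rfl

/-- The generic point in `BigField W`. -/
noncomputable def bigPoint (hΔ : W.Δ ≠ 0) : (bigCurve W).Point :=
  pointMapTo (algebraMap W.FunctionField (BigField W)) (genCurve_map_algebraMap W) (genPoint hΔ)

variable {W}

lemma bigIncl_eq (P : W.Point) :
    pointMapTo (algebraMap W.FunctionField (BigField W)) (genCurve_map_algebraMap W)
      (pointMapTo (constHom W) (rfl : _ = genCurve W) P) = bigIncl W P :=
  pointMapTo_comp (rfl : _ = genCurve W) _ rfl (rfl : _ = bigCurve W) P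

variable [IsAlgClosed F]

lemma bigPoint_zsmul_mem_range (hΔ : W.Δ ≠ 0) {z : ℤ}
    (hz : z • bigPoint W hΔ ∈ Set.range (bigIncl W)) : z = 0 := by
  by_contra h
  obtain ⟨c, hc⟩ : (z.natAbs : ℕ) • bigPoint W hΔ ∈ Set.range (bigIncl W) := by
    rcases Int.natAbs_eq z with h' | h' <;> rw [h'] at hz
    · rwa [natCast_zsmul] at hz
    · obtain ⟨c, hc⟩ := hz
      exact ⟨-c, by rw [map_neg, hc, neg_zsmul, natCast_zsmul, neg_neg]⟩
  refine nsmul_genPoint_notMem_range hΔ (Int.natAbs_ne_zero.mpr h) ⟨c, ?_⟩
  refine pointMapTo_injective (algebraMap W.FunctionField (BigField W))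
    (genCurve_map_algebraMap W) ?_
  rw [bigIncl_eq, hc, map_nsmul]
  rfl

lemma bigPoint_notMem_range (hΔ : W.Δ ≠ 0) : bigPoint W hΔ ∉ Set.range (bigIncl W) := fun h =>
  one_ne_zero (bigPoint_zsmul_mem_range hΔ (z := 1) (by rwa [one_zsmul]))

lemma nsmul_bigPoint_notMem_range (hΔ : W.Δ ≠ 0) {n : ℕ} (hn : n ≠ 0) :
    n • bigPoint W hΔ ∉ Set.range (bigIncl W) := fun h =>
  hn (Int.ofNat_eq_zero.mp
    (bigPoint_zsmul_mem_range hΔ (z := (n : ℤ)) (by rwa [natCast_zsmul])))

/-- Every multiple of the generic point and every constant torsion translate is independent of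
the constants. -/
lemma disjoint_range_zmultiples_bigPoint (hΔ : W.Δ ≠ 0) :
    Disjoint (bigIncl W).range (AddSubgroup.zmultiples (bigPoint W hΔ)) := by
  rw [AddSubgroup.disjoint_def]
  rintro x ⟨c, rfl⟩ hx
  obtain ⟨z, hz⟩ := AddSubgroup.mem_zmultiples_iff.mp hx
  rw [← hz, bigPoint_zsmul_mem_range hΔ ⟨c, hz.symm⟩, zero_zsmul]

lemma millerVal_genPoint (hΔ : W.Δ ≠ 0) (k : ℕ) (P : W.Point) :
    millerVal k (pointMapTo (constHom W) (rfl : _ = genCurve W) P) (genPoint hΔ) =
      algebraMap W.CoordinateRing W.FunctionField (millerNum k P) /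
        algebraMap W.CoordinateRing W.FunctionField (millerDen k P) := by
  rw [millerVal, millerNum, millerDen, map_prod, map_prod, ← Finset.prod_div_distrib]
  refine Finset.prod_congr rfl fun j _ => ?_
  rw [← map_nsmul]
  generalize j • P = A
  have hG : genPoint hΔ ≠ 0 := Point.some_ne_zero _
  set i := pointMapTo (constHom W) (rfl : _ = genCurve W)
  unfold lineNum lineDen
  by_cases h : A = 0 ∨ P = 0
  · rw [if_pos h, if_pos h]
    rcases h with rfl | rfl <;> simp
  rw [if_neg h, if_neg h]
  push Not at h
  have hA : i A ≠ 0 := (pointMapTo_eq_zero_iff _ _ A).not.mpr h.1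
  have hC : ∀ a : F, constHom W a =
      algebraMap W.CoordinateRing W.FunctionField (CoordinateRing.mk W (C (C a))) := fun a => rfl
  have hXc : ∀ a : F, algebraMap W.CoordinateRing W.FunctionField (CoordinateRing.XClass W a) =
      genX W - constHom W a := fun a => by
    rw [CoordinateRing.XClass, C_sub, map_sub, map_sub, hC]
    rfl
  by_cases hAP : A + P = 0
  · rw [if_pos hAP, if_pos hAP, map_one, div_one,
      lineVal_of_add_eq_zero hA (by rw [← map_add, hAP, map_zero]) hG, hXc]
    simp [i, genPoint]
  · have hp : IsLinePair A P := ⟨h.1, h.2, hAP⟩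
    rw [if_neg hAP, if_neg hAP,
      lineVal_of_isLinePair ((isLinePair_pointMapTo _ _ A P).mpr hp) hG, hXc]
    have hs : ptSlope (i A) (i P) = constHom W (ptSlope A P) := by
      simp only [ptSlope, i, ptX_pointMapTo, ptY_pointMapTo]
      exact map_slope (constHom W) (ptX A) (ptX P) (ptY A) (ptY P)
    rw [hs, ← map_add i]
    simp only [i, ptX_pointMapTo, ptY_pointMapTo, genPoint, ptX_some, ptY_some]
    congr 1
    simp only [CoordinateRing.YClass, linePolynomial, map_sub, map_add, map_mul, hC, genX, genY]

/-- A fixed point of all automorphisms which is separable lies in the base field. -/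
lemma mem_range_of_fixed {E L : Type*} [Field E] [Field L] [Algebra E L] [Normal E L] {x : L}
    (hsep : IsSeparable E x) (hfix : ∀ σ : L ≃ₐ[E] L, σ x = x) :
    x ∈ Set.range (algebraMap E L) := by
  classical
  have hint : IsIntegral E x := hsep.isIntegral
  have hsplit : ((minpoly E x).map (algebraMap E L)).Splits := Normal.splits inferInstance x
  have hroots : ((minpoly E x).map (algebraMap E L)).roots.toFinset ⊆ {x} := by
    intro r hr
    rw [Multiset.mem_toFinset, mem_roots ((Polynomial.map_ne_zero_iff
      (algebraMap E L).injective).mpr (minpoly.ne_zero hint))] at hr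
    have hr' : aeval r (minpoly E x) = 0 := by
      rw [aeval_def, eval₂_eq_eval_map]; exact hr
    obtain ⟨σ, hσ⟩ := ((isConjRoot_iff_aeval_eq_zero hint).mpr hr').symm.exists_algEquiv
    rw [Finset.mem_singleton, ← hσ, hfix σ]
  have hnd : ((minpoly E x).map (algebraMap E L)).roots.Nodup :=
    nodup_roots (Polynomial.Separable.map hsep)
  have hcard := Finset.card_le_card hroots
  rw [Multiset.toFinset_card_of_nodup hnd, splits_iff_card_roots.mp hsplit,
    natDegree_map, Finset.card_singleton] at hcard
  refine (minpoly.natDegree_eq_one_iff).mp (le_antisymm hcard ?_)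
  exact minpoly.natDegree_pos hint

/-- A field over which the coordinates of a nonzero multiple of the generic point are rational
has `BigField W` as an algebraic extension. -/
lemma isAlgebraic_bigField (hΔ : W.Δ ≠ 0) {n : ℕ} (E : Subfield (BigField W))
    (hc : ∀ a, bigConst W a ∈ E) {x' y' : BigField W} {h' : (bigCurve W).Nonsingular x' y'}
    (hS : n • bigPoint W hΔ = Point.some x' y' h') (hxE : x' ∈ E) :
    Algebra.IsAlgebraic E (BigField W) := by
  set a := algebraMap W.FunctionField (BigField W) with ha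
  set x := a (genX W) with hxdef
  set y := a (genY W) with hydef
  have hxy : ∃ h : (bigCurve W).Nonsingular x y, bigPoint W hΔ = Point.some x y h := ⟨_, rfl⟩
  obtain ⟨hns, hG⟩ := hxy
  rw [hG, ← natCast_zsmul] at hS
  have hform := ECTorsion.X_zsmul_some hns (n : ℤ) hS
  let fE : F →+* E := (bigConst W).codRestrict E hc
  have hfE : (algebraMap E (BigField W)).comp fE = bigConst W := rfl
  have hxalg : IsAlgebraic E x := by
    refine ⟨(W.Φ n).map fE - C ⟨x', hxE⟩ * (W.ΨSq n).map fE, fun h0 => ?_, ?_⟩
    · have hcoef := congr_arg (fun p : E[X] => p.coeff (n ^ 2)) h0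
      simp only [coeff_sub, coeff_map, coeff_C_mul, coeff_zero] at hcoef
      have h1 : (W.Φ (n : ℤ)).coeff (n ^ 2) = 1 := by
        simpa using W.coeff_Φ (n : ℤ)
      have hn0 : n ≠ 0 := by
        rintro rfl
        rw [Nat.cast_zero, zero_zsmul] at hS
        exact Point.some_ne_zero h' hS.symm
      have h2 : (W.ΨSq (n : ℤ)).coeff (n ^ 2) = 0 := by
        refine coeff_eq_zero_of_natDegree_lt ((W.natDegree_ΨSq_le (n : ℤ)).trans_lt ?_)
        rw [Int.natAbs_natCast]
        exact Nat.sub_one_lt (pow_ne_zero 2 hn0)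
      rw [h1, h2, map_one, map_zero, mul_zero, sub_zero] at hcoef
      exact one_ne_zero hcoef
    · rw [map_sub, map_mul, aeval_C, aeval_def, aeval_def, eval₂_map, eval₂_map, hfE]
      rw [bigCurve, map_ΨSq, map_Φ, eval_map, eval_map] at hform
      exact sub_eq_zero.mpr hform.symm
  let L₀ := algebraicClosure E (BigField W)
  have hxL : x ∈ L₀ := mem_algebraicClosure_iff.mpr hxalg
  have hcL : ∀ c, bigConst W c ∈ L₀ := fun c =>
    L₀.algebraMap_mem (⟨_, hc c⟩ : E)
  have : Algebra.IsAlgebraic E L₀ := algebraicClosure.isAlgebraic E (BigField W)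
  have hyL : y ∈ L₀ := by
    refine mem_algebraicClosure_iff.mpr (IsIntegral.isAlgebraic ?_)
    have hint : IsIntegral L₀ y := by
      let fL : F →+* L₀ := (bigConst W).codRestrict L₀ hcL
      refine ⟨(W.polynomial.map (mapRingHom fL)).map (evalRingHom ⟨x, hxL⟩),
        (monic_polynomial.map _).map _, ?_⟩
      have h := hns.1
      rw [bigCurve, Equation, map_polynomial, ← eval₂_evalRingHom, eval₂_map] at h
      rw [eval₂_map, eval₂_map]
      have e : ((algebraMap L₀ (BigField W)).comp (evalRingHom ⟨x, hxL⟩)).comp (mapRingHom fL) =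
          (evalRingHom x).comp (mapRingHom (bigConst W)) :=
        Polynomial.ringHom_ext (fun c => by simp [fL]) (by simp)
      rw [e]
      exact h
    exact isIntegral_trans (A := L₀) y hint
  have hA : ∀ r : W.CoordinateRing,
      a (algebraMap W.CoordinateRing W.FunctionField r) ∈ L₀ := by
    intro r
    obtain ⟨p, q, rfl⟩ := CoordinateRing.exists_smul_basis_eq r
    have hp : ∀ p : F[X],
        a (algebraMap W.CoordinateRing W.FunctionField (CoordinateRing.mk W (C p))) ∈ L₀ := by
      intro p
      induction p using Polynomial.induction_on' with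
      | add p q hp hq => rw [map_add, map_add, map_add, map_add]; exact add_mem hp hq
      | monomial i c =>
        rw [← C_mul_X_pow_eq_monomial, map_mul, map_pow, map_mul, map_pow, map_mul, map_pow,
          map_mul, map_pow]
        exact mul_mem (hcL c) (pow_mem hxL i)
    simp only [CoordinateRing.smul, mul_one, map_add, map_mul]
    exact add_mem (hp p) (mul_mem (hp q) hyL)
  have hK : ∀ r : W.FunctionField, a r ∈ L₀ := by
    intro r
    obtain ⟨u, v, -, rfl⟩ := IsFractionRing.div_surjective W.CoordinateRing r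
    rw [map_div₀]
    exact div_mem (hA u) (hA v)
  refine ⟨fun z => (IsIntegral.isAlgebraic ?_)⟩
  let aL : W.FunctionField →+* L₀ := a.codRestrict L₀ hK
  have hz : IsIntegral W.FunctionField z := Algebra.IsIntegral.isIntegral z
  obtain ⟨p, hpm, hp⟩ := hz
  have hint : IsIntegral L₀ z := ⟨p.map aL, hpm.map _, by
    rw [eval₂_map]
    exact hp⟩
  exact isIntegral_trans (A := L₀) z hint

/-- If translation by `E[n]` fixes `pairG n P` at the generic point then `P = 0`. -/
theorem eq_zero_of_pairG_invariant (hΔ : W.Δ ≠ 0) {n : ℕ} (hn : (n : F) ≠ 0) {P : W.Point}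
    (hnP : n • P = 0)
    (hinv : ∀ T : W.Point, n • T = 0 →
      pairG n (bigIncl W P) (bigPoint W hΔ + bigIncl W T) =
        pairG n (bigIncl W P) (bigPoint W hΔ)) : P = 0 := by
  have hn0 : n ≠ 0 := fun h => hn (by rw [h, Nat.cast_zero])
  by_contra hP
  set G := bigPoint W hΔ with hGdef
  have hd := disjoint_range_zmultiples_bigPoint hΔ
  have hnP' : n • bigIncl W P = 0 := by rw [← map_nsmul, hnP, map_zero]
  obtain ⟨φ, hφ, hcomp, hφG⟩ := exists_hom_genPoint hΔ (rfl : _ = bigCurve W)
    (Z := n • G) (nsmul_bigPoint_notMem_range hΔ hn0)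
  set x₀ := pairG n (bigIncl W P) G with hx₀
  have hpow : x₀ ^ n = φ (millerPhi n (pointMapTo (constHom W) (rfl : _ = genCurve W) P)
      (genPoint hΔ)) := by
    rw [hx₀, pairG_pow hd hnP' ⟨P, rfl⟩ (AddSubgroup.mem_zmultiples _),
      ← millerPhi_pointMapTo φ hφ, hφG,
      pointMapTo_comp (rfl : _ = genCurve W) hφ hcomp (rfl : _ = bigCurve W)]
    rfl
  set E := φ.fieldRange with hE
  have hc : ∀ a, bigConst W a ∈ E := fun a =>
    ⟨constHom W a, by rw [← RingHom.comp_apply, hcomp]⟩
  have hsome : ∃ (x' y' : BigField W) (h' : (bigCurve W).Nonsingular x' y'),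
      n • G = Point.some x' y' h' ∧ x' ∈ E ∧ y' ∈ E := by
    refine ⟨φ (genX W), φ (genY W), ?_, ?_, ⟨_, rfl⟩, ⟨_, rfl⟩⟩
    · exact hφ ▸ (map_nonsingular _ φ.injective _ _).mpr
        ((equation_iff_nonsingular_of_Δ_ne_zero (genCurve_delta_ne_zero hΔ)).mp genCurve_equation)
    · rw [← hφG]; rfl
  obtain ⟨x', y', h', hS, hx'E, hy'E⟩ := hsome
  have : Algebra.IsAlgebraic E (BigField W) := isAlgebraic_bigField hΔ E hc hS hx'E
  have : Normal E (BigField W) := normal_iff.mpr fun z =>
    ⟨(Algebra.IsAlgebraic.isAlgebraic z).isIntegral, IsAlgClosed.splits _⟩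
  have hnΩ : (n : BigField W) ≠ 0 := by
    rw [← map_natCast (bigConst W)]
    exact (map_ne_zero_iff _ (bigConst W).injective).mpr hn
  have hΔΩ : (bigCurve W).Δ ≠ 0 := by
    rw [bigCurve, map_Δ]
    exact (map_ne_zero_iff _ (bigConst W).injective).mpr hΔ
  -- `x₀` is fixed by every automorphism over `E`
  have hfix : ∀ σ : BigField W ≃ₐ[E] BigField W, σ x₀ = x₀ := by
    intro σ
    have hσc : ∀ a, σ (bigConst W a) = bigConst W a := fun a =>
      σ.commutes (⟨_, hc a⟩ : E)
    have hσW : (bigCurve W).map (σ : BigField W →+* BigField W) = bigCurve W := by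
      change W.map ((σ : BigField W →+* BigField W).comp (bigConst W)) = W.map (bigConst W)
      congr 1
      exact RingHom.ext hσc
    set s := pointMapTo (σ : BigField W →+* BigField W) hσW
    have hsι : ∀ Q, s (bigIncl W Q) = bigIncl W Q := fun Q =>
      pointMapTo_comp (rfl : _ = bigCurve W) hσW (RingHom.ext hσc) (rfl : _ = bigCurve W) Q
    have hsS : s (n • G) = n • G := by
      simp only [hS, s, pointMapTo_some, Point.some.injEq]
      exact ⟨σ.commutes (⟨_, hx'E⟩ : E), σ.commutes (⟨_, hy'E⟩ : E)⟩
    have hmem : s G - G ∈ Submodule.torsionBy ℤ (bigCurve W).Point n := by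
      rw [Submodule.mem_torsionBy_iff, natCast_zsmul, nsmul_sub, ← map_nsmul, hsS, sub_self]
    obtain ⟨T, hT, hTG⟩ : ∃ T : W.Point, n • T = 0 ∧ bigIncl W T = s G - G := by
      have : Finite (Submodule.torsionBy ℤ (bigCurve W).Point n) :=
        ECTorsion.finite_torsionBy hΔΩ hnΩ
      let j : Submodule.torsionBy ℤ W.Point n → Submodule.torsionBy ℤ (bigCurve W).Point n :=
        fun T => ⟨bigIncl W T, by
          have h := T.2
          rw [Submodule.mem_torsionBy_iff] at h ⊢
          rw [← map_zsmul, h, map_zero]⟩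
      have hj : Function.Injective j := fun T T' h =>
        Subtype.ext (pointMapTo_injective _ _ (congr_arg Subtype.val h))
      have hbij := (Nat.bijective_iff_injective_and_card j).mpr ⟨hj, by
        rw [ECTorsion.natCard_torsionBy hΔ hn, ECTorsion.natCard_torsionBy hΔΩ hnΩ]⟩
      obtain ⟨T, hT⟩ := hbij.2 ⟨_, hmem⟩
      refine ⟨T, ?_, congr_arg Subtype.val hT⟩
      have h := T.2
      rwa [Submodule.mem_torsionBy_iff, natCast_zsmul] at h
    have h := pairG_pointMapTo (σ : BigField W →+* BigField W) hσW n (bigIncl W P) G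
    rw [show s = pointMapTo (σ : BigField W →+* BigField W) hσW from rfl] at hsι hTG
    rw [hsι, show pointMapTo (σ : BigField W →+* BigField W) hσW G = G + bigIncl W T by
      rw [hTG, add_sub_cancel], hinv T hT] at h
    exact h.symm
  have hGG : pairG n (bigIncl W P) G ≠ 0 :=
    pairG_ne_zero hd ⟨P, rfl⟩ (AddSubgroup.mem_zmultiples _)
  have hsep : IsSeparable E x₀ := by
    have hne : (⟨x₀ ^ n, hpow ▸ ⟨_, rfl⟩⟩ : E) ≠ 0 := fun h =>
      pow_ne_zero n hGG (congr_arg Subtype.val h)
    have hnE : (n : E) ≠ 0 := fun h => hnΩ (by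
      rw [← map_natCast (algebraMap E (BigField W)), h, map_zero])
    refine (separable_X_pow_sub_C _ hnE hne).of_dvd (minpoly.dvd E x₀ ?_)
    rw [map_sub, map_pow, aeval_X, aeval_C]
    exact sub_self _
  obtain ⟨⟨e, ⟨h, rfl⟩⟩, he⟩ := mem_range_of_fixed hsep hfix
  refine millerFunction_not_pow hΔ hn0 hP hnP
    (if kappa n P = 1 then 1 else kappa n P) ?_ h ?_
  · split_ifs
    · exact one_ne_zero
    · exact kappa_ne_zero n P
  · refine φ.injective ?_
    rw [map_pow]
    change φ h = x₀ at he
    rw [he, hpow, millerPhi_of_ne (show genPoint hΔ ≠ 0 from Point.some_ne_zero _),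
      millerVal_genPoint, kappa_pointMapTo, mul_div_assoc]
    congr 2
    split_ifs with hk
    · rw [hk, map_one, map_one, map_one]
    · rfl

end Fermat.Agent.WeilPairing
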