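import Fermat.Agent.WeilPairing.Miller

/-!
# Miller functions and the two variable pairing

`millerVal k P Z = ∏_{j<k} lineVal (jP) P Z`.  For `n • P = 0`,
`pairG n P Z = κ · millerVal n P Z / millerVal n Z P` is an `n`-th root of the function `f_P`
evaluated at `n • Z`; its behaviour under translation of `Z` by `E[n]` gives the Weil pairing.
-/

namespace Fermat.Agent.WeilPairing

open WeierstrassCurve WeierstrassCurve.Affine

set_option linter.unusedSectionVars false

variable {F : Type*} [Field F] [DecidableEq F] {W : WeierstrassCurve.Affine F}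

/-- The value at `Z` of the Miller function of `k` and `P`. -/
noncomputable def millerVal (k : ℕ) (P Z : W.Point) : F :=
  ∏ j ∈ Finset.range k, lineVal (j • P) P Z

open scoped Classical in
/-- The sign making `millerVal` multiplicative modulo `n`-th powers. -/
noncomputable def kappa (k : ℕ) (P : W.Point) : F :=
  ∏ j ∈ Finset.range k, if IsLinePair (j • P) P then -1 else 1

@[simp] lemma millerVal_zero (k : ℕ) (P : W.Point) : millerVal k P 0 = 1 := by
  simp [millerVal]

@[simp] lemma millerVal_zero_left (k : ℕ) (Z : W.Point) : millerVal k 0 Z = 1 := by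
  simp [millerVal]

lemma millerVal_succ (k : ℕ) (P Z : W.Point) :
    millerVal (k + 1) P Z = millerVal k P Z * lineVal (k • P) P Z :=
  Finset.prod_range_succ _ k

lemma kappa_mul_self (k : ℕ) (P : W.Point) : kappa k P * kappa k P = 1 := by
  classical
  rw [kappa, ← Finset.prod_mul_distrib]
  exact Finset.prod_eq_one fun j _ => by split_ifs <;> simp

lemma kappa_ne_zero (k : ℕ) (P : W.Point) : kappa k P ≠ 0 :=
  left_ne_zero_of_mul_eq_one (kappa_mul_self k P)

lemma kappa_eq_of_addOrderOf_eq (k : ℕ) {P Q : W.Point} (h : addOrderOf P = addOrderOf Q) :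
    kappa k P = kappa k Q := by
  classical
  have hz : ∀ j : ℕ, j • P = 0 ↔ j • Q = 0 := fun j => by
    rw [← addOrderOf_dvd_iff_nsmul_eq_zero, ← addOrderOf_dvd_iff_nsmul_eq_zero, h]
  have h1 := hz 1
  simp only [one_nsmul] at h1
  refine Finset.prod_congr rfl fun j _ => if_congr ?_ rfl rfl
  simp only [IsLinePair, ne_eq, hz j, h1, ← succ_nsmul, hz (j + 1)]

section Disjoint

variable {G H : AddSubgroup W.Point}

lemma millerVal_ne_zero (hd : Disjoint G H) (k : ℕ) {P Z : W.Point} (hP : P ∈ G) (hZ : Z ∈ H) :
    millerVal k P Z ≠ 0 :=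
  Finset.prod_ne_zero_iff.mpr fun _ _ =>
    lineVal_ne_zero_of_disjoint hd (nsmul_mem hP _) hP hZ

open scoped Classical in
/-- Weil reciprocity between a Miller function and a line function. -/
theorem millerVal_mul_millerVal (hd : Disjoint G H) (k : ℕ) {P D E : W.Point} (hP : P ∈ G)
    (hD : D ∈ H) (hE : E ∈ H) :
    millerVal k P D * millerVal k P E * lineVal D E (k • P) =
      (if IsLinePair D E then kappa k P else 1) *
        millerVal k P (D + E) * lineVal D E P ^ k := by
  induction k with
  | zero => simp [millerVal, kappa]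
  | succ k ih =>
    have hT := lineVal_reciprocity hd (nsmul_mem hP k) hP hD hE
    have hs : recipSign (k • P) P D E * (if IsLinePair D E then kappa k P else (1 : F)) =
        if IsLinePair D E then kappa (k + 1) P else 1 := by
      rw [recipSign, kappa, kappa, Finset.prod_range_succ]
      by_cases h : IsLinePair D E
      · simp only [h, and_true, if_true, mul_comm]
      · simp [h]
    rw [millerVal_succ, millerVal_succ, millerVal_succ, succ_nsmul, pow_succ, ← hs]
    linear_combination (norm := ring1)
      millerVal k P D * millerVal k P E * hT +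
        recipSign (k • P) P D E * lineVal (k • P) P (D + E) * lineVal D E P * ih

/-- The abelian extension of `E` by the multiplicative group defined by the line functions. -/
theorem millerVal_add (hd : Disjoint G H) (k : ℕ) {R Q Z : W.Point} (hR : R ∈ G) (hQ : Q ∈ G)
    (hZ : Z ∈ H) :
    millerVal k (R + Q) Z * lineVal R Q Z ^ k =
      millerVal k R Z * millerVal k Q Z * lineVal (k • R) (k • Q) Z := by
  induction k with
  | zero => simp [millerVal]
  | succ k ih =>
    have hkR := nsmul_mem hR k
    have hkQ := nsmul_mem hQ k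
    have a := lineVal_cocycle_of_disjoint hd (add_mem hkR hkQ) hR hQ hZ
    have b := lineVal_cocycle_of_disjoint hd hR hkR hkQ hZ
    have c := lineVal_cocycle_of_disjoint hd (add_mem hR hkR) hkQ hQ hZ
    have cm₁ := lineVal_comm_of_disjoint hd hR hkR hZ
    have cm₂ := lineVal_comm_of_disjoint hd (add_mem hkR hkQ) hR hZ
    have e₁ : R + k • R = (k + 1) • R := by rw [succ_nsmul, add_comm]
    have e₂ : k • R + k • Q + R = (k + 1) • R + k • Q := by rw [succ_nsmul]; abel
    rw [e₂, cm₂] at a
    rw [e₁, cm₁] at b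
    rw [e₁, ← succ_nsmul Q k] at c
    rw [millerVal_succ, millerVal_succ, millerVal_succ, nsmul_add, pow_succ]
    linear_combination (norm := ring1)
      lineVal (k • R + k • Q) (R + Q) Z * lineVal R Q Z * ih -
        millerVal k R Z * millerVal k Q Z * lineVal (k • R) (k • Q) Z * a -
        millerVal k R Z * millerVal k Q Z * lineVal ((k + 1) • R + k • Q) Q Z * b +
        millerVal k R Z * millerVal k Q Z * lineVal (k • R) R Z * c

end Disjoint

open scoped Classical in
/-- `f_P(Z)`, normalised so as to be multiplicative modulo `n`-th powers. -/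
noncomputable def millerPhi (n : ℕ) (P Z : W.Point) : F :=
  if Z = 0 then 1 else kappa n P * millerVal n P Z

/-- An `n`-th root of `f_P (n • Z)`; on independent `n`-torsion points, the Weil pairing. -/
noncomputable def pairG (n : ℕ) (P Z : W.Point) : F :=
  millerPhi n P Z / millerVal n Z P

variable {n : ℕ}

lemma millerPhi_zero (P : W.Point) : millerPhi n P 0 = 1 := if_pos rfl

lemma millerPhi_of_ne {P Z : W.Point} (hZ : Z ≠ 0) :
    millerPhi n P Z = kappa n P * millerVal n P Z := if_neg hZ

lemma pairG_zero_right (P : W.Point) : pairG n P 0 = 1 := by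
  simp [pairG, millerPhi_zero]

section Disjoint

variable {G H : AddSubgroup W.Point}

lemma millerPhi_ne_zero (hd : Disjoint G H) {P Z : W.Point} (hP : P ∈ G) (hZ : Z ∈ H) :
    millerPhi n P Z ≠ 0 := by
  by_cases h : Z = 0
  · simp [h, millerPhi_zero]
  · rw [millerPhi_of_ne h]
    exact mul_ne_zero (kappa_ne_zero n P) (millerVal_ne_zero hd n hP hZ)

lemma pairG_ne_zero (hd : Disjoint G H) {P Z : W.Point} (hP : P ∈ G) (hZ : Z ∈ H) :
    pairG n P Z ≠ 0 :=
  div_ne_zero (millerPhi_ne_zero hd hP hZ) (millerVal_ne_zero hd.symm n hZ hP)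

theorem millerPhi_mul (hd : Disjoint G H) {P D E : W.Point} (hnP : n • P = 0) (hP : P ∈ G)
    (hD : D ∈ H) (hE : E ∈ H) :
    millerPhi n P D * millerPhi n P E = millerPhi n P (D + E) * lineVal D E P ^ n := by
  classical
  have h := millerVal_mul_millerVal hd n hP hD hE
  rw [hnP, lineVal_zero, mul_one] at h
  by_cases hD0 : D = 0
  · simp [hD0, millerPhi_zero]
  by_cases hE0 : E = 0
  · simp [hE0, millerPhi_zero]
  rw [millerPhi_of_ne hD0, millerPhi_of_ne hE0]
  by_cases hDE : D + E = 0
  · rw [hDE, millerPhi_zero, one_mul]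
    rw [if_neg (fun h => h.2.2 hDE), hDE, millerVal_zero, one_mul, one_mul] at h
    linear_combination (norm := ring1) millerVal n P D * millerVal n P E * kappa_mul_self n P + h
  · rw [millerPhi_of_ne hDE]
    rw [if_pos ⟨hD0, hE0, hDE⟩] at h
    linear_combination (norm := ring1) (millerVal n P D * millerVal n P E) * kappa_mul_self n P +
      h

/-- Translation of the argument of `pairG`. -/
theorem pairG_add_mul (hd : Disjoint G H) {P D E : W.Point} (hnP : n • P = 0) (hP : P ∈ G)
    (hD : D ∈ H) (hE : E ∈ H) :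
    pairG n P (D + E) * lineVal (n • D) (n • E) P = pairG n P D * pairG n P E := by
  have h₁ := millerPhi_mul hd hnP hP hD hE
  have h₂ := millerVal_add hd.symm n hD hE hP
  have a := millerVal_ne_zero hd.symm n hD hP
  have b := millerVal_ne_zero hd.symm n hE hP
  have c := millerVal_ne_zero hd.symm n (add_mem hD hE) hP
  have l := pow_ne_zero n (lineVal_ne_zero_of_disjoint hd.symm hD hE hP)
  simp only [pairG]
  field_simp
  linear_combination (norm := ring1)
    -(millerPhi n P (D + E)) * h₂ - millerVal n (D + E) P * h₁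

theorem pairG_add (hd : Disjoint G H) {P D E : W.Point} (hnP : n • P = 0) (hP : P ∈ G)
    (hD : D ∈ H) (hE : E ∈ H) (hnE : n • E = 0) :
    pairG n P (D + E) = pairG n P D * pairG n P E := by
  have h := pairG_add_mul hd hnP hP hD hE
  simpa [hnE] using h

open scoped Classical in
/-- `pairG` is additive in the first variable up to a factor which depends only on `n • R`. -/
theorem pairG_mul_pairG (hd : Disjoint G H) {P₁ P₂ R : W.Point} (h₁ : n • P₁ = 0)
    (h₂ : n • P₂ = 0) (hP₁ : P₁ ∈ G) (hP₂ : P₂ ∈ G) (hR : R ∈ H) (hR0 : R ≠ 0) :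
    pairG n P₁ R * pairG n P₂ R =
      pairG n (P₁ + P₂) R * lineVal P₁ P₂ (n • R) *
        (kappa n P₁ * kappa n P₂ * kappa n (P₁ + P₂) *
          if IsLinePair P₁ P₂ then kappa n R else 1) := by
  have hP := add_mem hP₁ hP₂
  have ext := millerVal_add hd n hP₁ hP₂ hR
  rw [h₁, h₂, lineVal_zero_left, mul_one] at ext
  have tel := millerVal_mul_millerVal hd.symm n hR hP₁ hP₂
  have a := millerVal_ne_zero hd.symm n hR hP₁
  have b := millerVal_ne_zero hd.symm n hR hP₂
  have c := millerVal_ne_zero hd.symm n hR hP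
  have l := lineVal_ne_zero_of_disjoint hd hP₁ hP₂ hR
  simp only [pairG, millerPhi_of_ne hR0]
  field_simp
  set s : F := if IsLinePair P₁ P₂ then kappa n R else 1 with hs
  have hs2 : s * s = 1 := by
    rw [hs]; split_ifs
    · exact kappa_mul_self n R
    · exact mul_one 1
  linear_combination (norm := ring1)
    -(kappa n P₁ * kappa n P₂ * millerVal n R (P₁ + P₂)) * ext -
    kappa n P₁ * kappa n P₂ * millerVal n (P₁ + P₂) R * millerVal n R (P₁ + P₂) *
      lineVal P₁ P₂ R ^ n * hs2 -
    kappa n P₁ * kappa n P₂ * s * millerVal n (P₁ + P₂) R * tel -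
    kappa n P₁ * kappa n P₂ * s * lineVal P₁ P₂ (n • R) * millerVal n (P₁ + P₂) R *
      millerVal n R P₁ * millerVal n R P₂ * kappa_mul_self n (P₁ + P₂)

/-- Antisymmetry. -/
theorem pairG_mul_pairG_swap (hd : Disjoint G H) {P Q : W.Point} (hP : P ∈ G) (hQ : Q ∈ H)
    (hP0 : P ≠ 0) (hQ0 : Q ≠ 0) (hord : addOrderOf P = addOrderOf Q) :
    pairG n P Q * pairG n Q P = 1 := by
  have a := millerVal_ne_zero hd n hP hQ
  have b := millerVal_ne_zero hd.symm n hQ hP
  simp only [pairG, millerPhi_of_ne hP0, millerPhi_of_ne hQ0, kappa_eq_of_addOrderOf_eq n hord]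
  field_simp
  linear_combination (norm := ring1) kappa_mul_self n Q

end Disjoint

end Fermat.Agent.WeilPairing
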