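import Mathlib.AlgebraicGeometry.EllipticCurve.Affine.Point

/-!
# The pole order filtration on the affine coordinate ring of a Weierstrass curve

`X` has weight `2` and `Y` has weight `3`.  `Monic' f n` says that `f` has weight `n` with
leading coefficient one.  Two such elements which differ by a constant are equal.
-/

namespace Fermat.Agent.WeilPairing

open Polynomial WeierstrassCurve WeierstrassCurve.Affine
open scoped Polynomial.Bivariate

variable {F : Type*} [Field F] (W : WeierstrassCurve.Affine F)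

/-- The class of `X ^ i * Y ^ j`. -/
noncomputable def monCls (i j : ℕ) : W.CoordinateRing :=
  CoordinateRing.mk W (C (X ^ i) * Y ^ j)

/-- Elements of weight `< n`. -/
noncomputable def weightLT (n : ℕ) : Submodule F W.CoordinateRing :=
  Submodule.span F ((fun ij : ℕ × ℕ => monCls W ij.1 ij.2) ''
    {ij : ℕ × ℕ | ij.2 ≤ 1 ∧ 2 * ij.1 + 3 * ij.2 < n})

/-- `f` has weight `n` and leading coefficient `1`. -/
def WeightMonic (f : W.CoordinateRing) (n : ℕ) : Prop :=
  ∃ i j : ℕ, 2 * i + 3 * j = n ∧ f - monCls W i j ∈ weightLT W n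

variable {W}

lemma monCls_mul (i j i' j' : ℕ) :
    monCls W i j * monCls W i' j' = monCls W (i + i') (j + j') := by
  simp only [monCls, ← map_mul]
  congr 1
  rw [pow_add, pow_add, C_mul]
  ring

lemma weightLT_mono {m n : ℕ} (h : m ≤ n) : weightLT W m ≤ weightLT W n :=
  Submodule.span_mono (Set.image_mono fun _ hx => ⟨hx.1, hx.2.trans_le h⟩)

lemma monCls_add_two (i j : ℕ) : monCls W i (j + 2) =
    monCls W (i + 3) j + W.a₂ • monCls W (i + 2) j + W.a₄ • monCls W (i + 1) j +
      W.a₆ • monCls W i j - W.a₁ • monCls W (i + 1) (j + 1) - W.a₃ • monCls W i (j + 1) := by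
  have hsmul : ∀ (a : F) (p : F[X][Y]), a • CoordinateRing.mk W p =
      CoordinateRing.mk W (C (C a) * p) := fun a p => by
    rw [map_mul, Algebra.smul_def]
    rfl
  simp only [monCls, hsmul, ← map_add, ← map_sub]
  exact AdjoinRoot.mk_eq_mk.mpr ⟨C (X ^ i) * Y ^ j, by
    simp only [WeierstrassCurve.Affine.polynomial, pow_add, map_add, map_mul, map_pow]
    ring⟩

lemma monCls_mem (j : ℕ) : ∀ {i n : ℕ}, 2 * i + 3 * j < n → monCls W i j ∈ weightLT W n := by
  induction j using Nat.strong_induction_on with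
  | _ j ih =>
    intro i n h
    rcases j with _ | _ | j
    · exact Submodule.subset_span ⟨(i, 0), ⟨zero_le_one, h⟩, rfl⟩
    · exact Submodule.subset_span ⟨(i, 1), ⟨le_rfl, h⟩, rfl⟩
    · rw [monCls_add_two]
      refine Submodule.sub_mem _ (Submodule.sub_mem _ (Submodule.add_mem _ (Submodule.add_mem _
        (Submodule.add_mem _ ?_ ?_) ?_) ?_) ?_) ?_
      all_goals first
        | exact ih _ (by omega) (by omega)
        | exact Submodule.smul_mem _ _ (ih _ (by omega) (by omega))

lemma monCls_sub_mem (i j : ℕ) :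
    monCls W i (j + 2) - monCls W (i + 3) j ∈ weightLT W (2 * i + 3 * (j + 2)) := by
  have h : monCls W i (j + 2) - monCls W (i + 3) j =
      W.a₂ • monCls W (i + 2) j + W.a₄ • monCls W (i + 1) j +
      W.a₆ • monCls W i j - W.a₁ • monCls W (i + 1) (j + 1) - W.a₃ • monCls W i (j + 1) := by
    rw [monCls_add_two]
    abel
  rw [h]
  refine Submodule.sub_mem _ (Submodule.sub_mem _ (Submodule.add_mem _ (Submodule.add_mem _
    ?_ ?_) ?_) ?_) ?_
  all_goals exact Submodule.smul_mem _ _ (monCls_mem _ (by omega))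

lemma mul_mem_weightLT {m n : ℕ} {f : W.CoordinateRing} (hf : f ∈ weightLT W m) :
    ∀ {i j : ℕ}, 2 * i + 3 * j ≤ n → f * monCls W i j ∈ weightLT W (m + n) := by
  intro i j h
  induction hf using Submodule.span_induction with
  | mem x hx =>
    obtain ⟨⟨a, b⟩, ⟨-, hab⟩, rfl⟩ := hx
    simp only at hab ⊢
    rw [monCls_mul]
    exact monCls_mem _ (by omega)
  | zero => rw [zero_mul]; exact zero_mem _
  | add x y _ _ hx hy => rw [add_mul]; exact add_mem hx hy
  | smul c x _ hx => rw [smul_mul_assoc]; exact Submodule.smul_mem _ c hx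

lemma mul_mem_weightLT' {m n : ℕ} {f g : W.CoordinateRing} (hf : f ∈ weightLT W m)
    (hg : g ∈ weightLT W n) : f * g ∈ weightLT W (m + n) := by
  induction hg using Submodule.span_induction with
  | mem x hx =>
    obtain ⟨⟨a, b⟩, ⟨-, hab⟩, rfl⟩ := hx
    exact mul_mem_weightLT hf (le_of_lt hab)
  | zero => rw [mul_zero]; exact zero_mem _
  | add x y _ _ hx hy => rw [mul_add]; exact add_mem hx hy
  | smul c x _ hx => rw [mul_smul_comm]; exact Submodule.smul_mem _ c hx

lemma WeightMonic.mul {f g : W.CoordinateRing} {m n : ℕ} (hf : WeightMonic W f m)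
    (hg : WeightMonic W g n) : WeightMonic W (f * g) (m + n) := by
  obtain ⟨i, j, hij, hf⟩ := hf
  obtain ⟨i', j', hij', hg⟩ := hg
  refine ⟨i + i', j + j', by omega, ?_⟩
  have h : f * g - monCls W (i + i') (j + j') =
      (f - monCls W i j) * monCls W i' j' + (g - monCls W i' j') * monCls W i j +
        (f - monCls W i j) * (g - monCls W i' j') := by
    rw [← monCls_mul]
    ring
  rw [h]
  refine add_mem (add_mem (mul_mem_weightLT hf hij'.le) ?_) (mul_mem_weightLT' hf hg)
  rw [add_comm m n]
  exact mul_mem_weightLT hg hij.le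

lemma weightMonic_one : WeightMonic W 1 0 :=
  ⟨0, 0, rfl, by simp [monCls]⟩

lemma weightMonic_XClass (x : F) : WeightMonic W (CoordinateRing.XClass W x) 2 := by
  refine ⟨1, 0, rfl, ?_⟩
  have h : CoordinateRing.XClass W x - monCls W 1 0 = (-x) • monCls W 0 0 := by
    simp only [CoordinateRing.XClass, monCls, Algebra.smul_def, pow_one, pow_zero, mul_one,
      map_one, map_sub, map_neg]
    rw [sub_sub_cancel_left]
    rfl
  rw [h]
  exact Submodule.smul_mem _ _ (monCls_mem 0 (by omega))

lemma weightMonic_YClass_line (x y l : F) :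
    WeightMonic W (CoordinateRing.YClass W (linePolynomial x y l)) 3 := by
  refine ⟨0, 1, rfl, ?_⟩
  have h : CoordinateRing.YClass W (linePolynomial x y l) - monCls W 0 1 =
      (-l) • monCls W 1 0 + (l * x - y) • monCls W 0 0 := by
    have hsmul : ∀ (a : F) (p : F[X][Y]), a • CoordinateRing.mk W p =
        CoordinateRing.mk W (C (C a) * p) := fun a p => by
      rw [map_mul, Algebra.smul_def]
      rfl
    simp only [CoordinateRing.YClass, monCls, hsmul, ← map_add, ← map_sub, linePolynomial]
    congr 1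
    simp only [pow_zero, pow_one, map_one, one_mul, mul_one, map_neg, map_sub, map_mul, map_add]
    ring
  rw [h]
  exact add_mem (Submodule.smul_mem _ _ (monCls_mem 0 (by omega)))
    (Submodule.smul_mem _ _ (monCls_mem 0 (by omega)))

/-- A coordinate functional killing everything of lower weight. -/
lemma monCls_notMem (i j : ℕ) (hj : j ≤ 1) : monCls W i j ∉ weightLT W (2 * i + 3 * j) := by
  classical
  let ji : Fin 2 := ⟨j, by omega⟩
  let φ : W.CoordinateRing →ₗ[F] F :=
    (lcoeff F i).comp (((CoordinateRing.basis W).coord ji).restrictScalars F)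
  have hφ : ∀ a b : ℕ, b ≤ 1 → φ (monCls W a b) = if a = i ∧ b = j then 1 else 0 := by
    intro a b hb
    have hbasis : monCls W a b = (X ^ a : F[X]) • CoordinateRing.basis W ⟨b, by omega⟩ := by
      rw [CoordinateRing.smul, monCls, map_mul]
      congr 1
      rcases b with _ | _ | b
      · simp
      · simp
      · omega
    simp only [φ, ji, hbasis, LinearMap.comp_apply, LinearMap.coe_restrictScalars,
      Module.Basis.coord_apply, map_smul, Module.Basis.repr_self, Finsupp.single_apply, Fin.mk.injEq, lcoeff_apply, smul_eq_mul]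
    by_cases hbj : b = j
    · simp [hbj, coeff_X_pow, eq_comm]
    · simp [hbj]
  intro hmem
  have hker : weightLT W (2 * i + 3 * j) ≤ LinearMap.ker φ := by
    refine Submodule.span_le.mpr ?_
    rintro _ ⟨⟨a, b⟩, ⟨hb, hab⟩, rfl⟩
    rw [SetLike.mem_coe, LinearMap.mem_ker, hφ a b hb, if_neg]
    rintro ⟨rfl, rfl⟩
    simp at hab
  have h := hker hmem
  rw [LinearMap.mem_ker, hφ i j hj, if_pos ⟨rfl, rfl⟩] at h
  exact one_ne_zero h

lemma WeightMonic.exists_canonical {f : W.CoordinateRing} {n : ℕ} (hf : WeightMonic W f n) :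
    ∃ i j, j ≤ 1 ∧ 2 * i + 3 * j = n ∧ f - monCls W i j ∈ weightLT W n := by
  obtain ⟨i, j, hij, hf⟩ := hf
  induction j using Nat.strong_induction_on generalizing i with
  | _ j ih =>
    rcases j with _ | _ | j
    · exact ⟨i, 0, zero_le_one, hij, hf⟩
    · exact ⟨i, 1, le_rfl, hij, hf⟩
    · refine ih j (by omega) (i + 3) (by omega) ?_
      have h : f - monCls W (i + 3) j =
          (f - monCls W i (j + 2)) + (monCls W i (j + 2) - monCls W (i + 3) j) := by abel
      rw [h]
      exact add_mem hf (hij ▸ monCls_sub_mem i j)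

lemma WeightMonic.ne_zero {f : W.CoordinateRing} {n : ℕ} (hf : WeightMonic W f n) : f ≠ 0 := by
  obtain ⟨i, j, hj, rfl, hf⟩ := hf.exists_canonical
  rintro rfl
  rw [zero_sub, Submodule.neg_mem_iff] at hf
  exact monCls_notMem i j hj hf

lemma WeightMonic.smul_eq {f : W.CoordinateRing} {n : ℕ} {c : F} (hf : WeightMonic W f n)
    (hcf : WeightMonic W (c • f) n) : c = 1 := by
  obtain ⟨i, j, hj, rfl, hf⟩ := hf.exists_canonical
  obtain ⟨i', j', hj', he, hcf⟩ := hcf.exists_canonical
  obtain ⟨rfl, rfl⟩ : i' = i ∧ j' = j := by omega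
  by_contra hc
  refine monCls_notMem (W := W) i' j' hj' ?_
  have h : (c - 1) • monCls W i' j' =
      (c • f - monCls W i' j') - c • (f - monCls W i' j') := by
    rw [sub_smul, one_smul, smul_sub]
    abel
  have hm := sub_mem hcf (Submodule.smul_mem _ c hf)
  rw [← h] at hm
  exact (Submodule.smul_mem_iff _ (sub_ne_zero.mpr hc)).mp hm

lemma exists_of_isUnit {f : W.CoordinateRing} (hf : IsUnit f) :
    ∃ c : F, c ≠ 0 ∧ f = algebraMap F W.CoordinateRing c := by
  obtain ⟨p, q, rfl⟩ := CoordinateRing.exists_smul_basis_eq f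
  have hdeg := degree_eq_zero_of_isUnit (hf.map (Algebra.norm F[X]))
  rw [CoordinateRing.degree_norm_smul_basis] at hdeg
  have hq : q = 0 := by
    by_contra hq
    have h3 : (3 : WithBot ℕ) ≤ 2 • q.degree + 3 := by
      rw [degree_eq_natDegree hq]
      exact le_add_of_nonneg_left (nsmul_nonneg (WithBot.coe_nonneg.mpr (Nat.zero_le _)) _)
    have := (h3.trans (le_max_right (2 • p.degree) _)).trans_eq hdeg
    exact absurd this (by decide)
  subst hq
  have hp : p.degree ≤ 0 := by
    by_contra hp
    have hp' := lt_of_not_ge hp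
    have h2 : p.degree ≤ 2 • p.degree := by
      rw [two_nsmul]
      exact le_add_of_nonneg_left hp'.le
    exact not_le.mpr hp' ((h2.trans (le_max_left _ _)).trans_eq hdeg)
  obtain ⟨c, rfl⟩ : ∃ c, p = C c := ⟨_, eq_C_of_degree_le_zero hp⟩
  refine ⟨c, ?_, ?_⟩
  · rintro rfl
    simp at hf
  · simp only [Algebra.smul_def, mul_one, map_zero, zero_mul, add_zero]
    rfl

/-- Two elements generating the same ideal and monic of the same weight are equal. -/
theorem eq_of_span_eq_span {f g : W.CoordinateRing} {n : ℕ} (hf : WeightMonic W f n)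
    (hg : WeightMonic W g n) (h : Ideal.span {f} = Ideal.span {g}) : f = g := by
  obtain ⟨u, hu⟩ := Ideal.span_singleton_eq_span_singleton.mp h
  obtain ⟨c, -, hcu⟩ := exists_of_isUnit u.isUnit
  have hgc : g = c • f := by rw [← hu, hcu, Algebra.smul_def, mul_comm]
  rw [hgc] at hg
  rw [hgc, hf.smul_eq hg, one_smul]

end Fermat.Agent.WeilPairing
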